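import Mathlib

/-!
# CAR / NR : linear algebra lemmas for the abstract norm formulas

* `det_blockDiagonal'` , `norm_pi` : norm on a finite product of finite free algebras;
* `filt_det` : determinant and dimension of a module which is "free over `k[t]/(t^e)`";
* `norm_quotient_mk` : the norm commutes with reduction modulo the maximal ideal.
-/

set_option autoImplicit false

namespace Fermat.Agent.CAR.NR

open Module

section Pi

theorem det_blockDiagonal' {R : Type*} [CommRing R] {o : Type*} [Fintype o] [DecidableEq o]
    {n : o → Type*} [∀ i, Fintype (n i)] [∀ i, DecidableEq (n i)]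
    (d : ∀ i, Matrix (n i) (n i) R) :
    (Matrix.blockDiagonal' d).det = ∏ i, (d i).det := by
  classical
  let _ : LinearOrder o := LinearOrder.lift' (Fintype.equivFin o) (Fintype.equivFin o).injective
  rw [(Matrix.blockTriangular_blockDiagonal' d).det_fintype]
  refine Finset.prod_congr rfl fun k _ => ?_
  let e : { a : Σ i, n i // a.1 = k } ≃ n k :=
    { toFun := fun a => a.2 ▸ a.1.2
      invFun := fun b => ⟨⟨k, b⟩, rfl⟩
      left_inv := by rintro ⟨⟨i, a⟩, rfl⟩; rfl
      right_inv := fun b => rfl }
  have : (Matrix.blockDiagonal' d).toSquareBlock Sigma.fst k = (d k).submatrix e e := by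
    ext ⟨⟨i, a⟩, hi⟩ ⟨⟨j, b⟩, hj⟩
    dsimp only at hi hj
    subst hi
    subst hj
    simp [Matrix.toSquareBlock_def, e]
  rw [this, Matrix.det_submatrix_equiv_self]

theorem norm_pi {k : Type*} [CommRing k] {I : Type*} [Fintype I]
    (A : I → Type*) [∀ i, CommRing (A i)] [∀ i, Algebra k (A i)] [∀ i, Module.Free k (A i)]
    [∀ i, Module.Finite k (A i)] (x : Π i, A i) :
    Algebra.norm k x = ∏ i, Algebra.norm k (x i) := by
  classical
  rcases subsingleton_or_nontrivial k with hk | hk
  · exact Subsingleton.elim _ _
  let b : ∀ i, Basis (Free.ChooseBasisIndex k (A i)) k (A i) := fun i => Free.chooseBasis k (A i)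
  rw [Algebra.norm_eq_matrix_det (Pi.basis b)]
  have : Algebra.leftMulMatrix (Pi.basis b) x
      = Matrix.blockDiagonal' fun i => Algebra.leftMulMatrix (b i) (x i) := by
    ext ⟨i, a⟩ ⟨j, c⟩
    rw [Algebra.leftMulMatrix_eq_repr_mul, Matrix.blockDiagonal'_apply, Pi.basis_repr,
      Pi.basis_apply]
    by_cases h : i = j
    · subst h
      simp [Algebra.leftMulMatrix_eq_repr_mul]
    · rw [dif_neg h]
      simp [Pi.single_eq_of_ne h]
  rw [this, det_blockDiagonal']
  refine Finset.prod_congr rfl fun i _ => ?_
  rw [Algebra.norm_eq_matrix_det (b i)]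

end Pi

section Quot

open IsLocalRing

variable {R S : Type*} [CommRing R] [CommRing S] [Algebra R S]
variable [Module.Free R S] [Module.Finite R S]

attribute [local instance] Ideal.Quotient.field

theorem norm_quotient_mk [IsLocalRing R] (x : S) :
    Algebra.norm (R ⧸ maximalIdeal R)
        (Ideal.Quotient.mk (Ideal.map (algebraMap R S) (maximalIdeal R)) x) =
      Ideal.Quotient.mk (maximalIdeal R) (Algebra.norm R x) := by
  classical
  let ι := Module.Free.ChooseBasisIndex R S
  let b : Module.Basis ι R S := Module.Free.chooseBasis R S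
  rw [Algebra.norm_eq_matrix_det b, Algebra.norm_eq_matrix_det (basisQuotient b), RingHom.map_det]
  congr 1
  ext i j
  simp only [Algebra.leftMulMatrix_apply, Algebra.coe_lmul_eq_mul, LinearMap.toMatrix_apply,
    basisQuotient_apply, LinearMap.mul_apply', RingHom.mapMatrix_apply, Matrix.map_apply, ← map_mul,
    basisQuotient_repr]

end Quot

section Filt

universe u v

/-- quotient model: if `ψ : M → N` is onto with kernel `W`, `y` preserves `W` and induces `y'`. -/
theorem det_mapQ_eq {k : Type*} [Field k] {M : Type*} {N : Type*} [AddCommGroup M] [Module k M]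
    [AddCommGroup N] [Module k N] (W : Submodule k M) (y : M →ₗ[k] M) (y' : N →ₗ[k] N)
    (ψ : M →ₗ[k] N) (hψ : Function.Surjective ψ) (hker : LinearMap.ker ψ = W)
    (hy : ∀ x, ψ (y x) = y' (ψ x)) (he : W ≤ W.comap y) :
    LinearMap.det (W.mapQ W y he) = LinearMap.det y' := by
  subst hker
  let E : (M ⧸ LinearMap.ker ψ) ≃ₗ[k] N := ψ.quotKerEquivOfSurjective hψ
  rw [← LinearMap.det_conj _ E]
  congr 1
  ext n
  obtain ⟨m, rfl⟩ := hψ n
  have h1 : E.symm (ψ m) = Submodule.Quotient.mk m := by
    rw [LinearEquiv.symm_apply_eq]; rfl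
  simp only [LinearMap.coe_comp, LinearEquiv.coe_coe, Function.comp_apply, h1]
  rw [← hy]
  rfl

theorem filt_det {k : Type*} [Field k] (e : ℕ) :
    ∀ (M : Type u) (N : Type v) [AddCommGroup M] [Module k M] [FiniteDimensional k M]
      [AddCommGroup N] [Module k N] (y t : M →ₗ[k] M) (y' : N →ₗ[k] N) (ψ : M →ₗ[k] N),
      (∀ x, y (t x) = t (y x)) → (∀ x, (t ^ e) x = 0) →
      (∀ x, t x = 0 → ∃ z, x = (t ^ (e - 1)) z) →
      Function.Surjective ψ → (∀ x, ψ x = 0 ↔ ∃ z, x = t z) → (∀ x, ψ (y x) = y' (ψ x)) →
      LinearMap.det y = LinearMap.det y' ^ e ∧ finrank k M = e * finrank k N := by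
  induction e with
  | zero =>
    intro M N _ _ _ _ _ y t y' ψ _ ht _ _ _ _
    have : Subsingleton M := ⟨fun a b => by
      have h1 := ht a; have h2 := ht b
      simp only [pow_zero, Module.End.one_apply] at h1 h2
      rw [h1, h2]⟩
    refine ⟨by rw [pow_zero]; exact LinearMap.det_eq_one_of_subsingleton y, ?_⟩
    rw [zero_mul]; exact finrank_zero_of_subsingleton
  | succ e ih =>
    intro M N _ _ _ _ _ y t y' ψ hc ht hk hψ hker hy
    have hkerW : LinearMap.ker ψ = LinearMap.range t := by
      ext x
      rw [LinearMap.mem_ker, hker, LinearMap.mem_range]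
      constructor
      · rintro ⟨z, rfl⟩; exact ⟨z, rfl⟩
      · rintro ⟨z, rfl⟩; exact ⟨z, rfl⟩
    have he : LinearMap.range t ≤ (LinearMap.range t).comap y := by
      rintro _ ⟨z, rfl⟩
      exact ⟨y z, (hc z).symm⟩
    have hdet := LinearMap.det_eq_det_mul_det (LinearMap.range t) y he
    rw [det_mapQ_eq (LinearMap.range t) y y' ψ hψ hkerW hy he] at hdet
    have hrk : finrank k N + finrank k (LinearMap.range t) = finrank k M := by
      have h1 := LinearMap.finrank_range_add_finrank_ker ψ
      rw [LinearMap.range_eq_top.2 hψ, finrank_top, hkerW] at h1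
      exact h1
    rcases Nat.eq_zero_or_pos e with rfl | hpos
    · -- `t = 0`
      have : Subsingleton (LinearMap.range t) := ⟨by
        rintro ⟨_, a, rfl⟩ ⟨_, b, rfl⟩
        have h1 := ht a; have h2 := ht b
        simp only [zero_add, pow_one] at h1 h2
        exact Subtype.ext (h1.trans h2.symm)⟩
      rw [LinearMap.det_eq_one_of_subsingleton (y.restrict he), one_mul] at hdet
      rw [finrank_zero_of_subsingleton (M := LinearMap.range t), add_zero] at hrk
      exact ⟨by rw [hdet, zero_add, pow_one], by rw [← hrk, zero_add, one_mul]⟩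
    · -- induction on `M' = range t`
      have hle : LinearMap.ker t ≤ LinearMap.ker ψ := by
        intro x hx
        obtain ⟨z, rfl⟩ := hk x hx
        rw [LinearMap.mem_ker, hker]
        obtain ⟨e', rfl⟩ : ∃ e', e = e' + 1 := ⟨e - 1, by omega⟩
        refine ⟨(t ^ e') z, ?_⟩
        simp only [Nat.add_sub_cancel]
        rw [pow_succ', Module.End.mul_apply]
      let ψ' : LinearMap.range t →ₗ[k] N :=
        ((LinearMap.ker t).liftQ ψ hle).comp t.quotKerEquivRange.symm.toLinearMap
      have hψ' : ∀ (x : M) (h : t x ∈ LinearMap.range t), ψ' ⟨t x, h⟩ = ψ x := by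
        intro x h
        simp only [ψ', LinearMap.coe_comp, LinearEquiv.coe_coe, Function.comp_apply]
        rw [LinearMap.quotKerEquivRange_symm_apply_image]
        rfl
      have het : LinearMap.range t ≤ (LinearMap.range t).comap t := by
        rintro _ ⟨z, rfl⟩
        exact ⟨t z, rfl⟩
      have hpow : ∀ (j : ℕ) (x : LinearMap.range t),
          ((((t.restrict het : LinearMap.range t →ₗ[k] LinearMap.range t)) ^ j) x : M)
            = (t ^ j) (x : M) := by
        intro j
        induction j with
        | zero => intro x; simp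
        | succ j ihj =>
          intro x
          rw [pow_succ', Module.End.mul_apply, pow_succ', Module.End.mul_apply, ← ihj]
          rfl
      have hrep : ∀ x : LinearMap.range t, ∃ z, x = ⟨t z, LinearMap.mem_range_self t z⟩ := by
        intro x
        obtain ⟨z, hz⟩ := LinearMap.mem_range.1 x.2
        exact ⟨z, Subtype.ext hz.symm⟩
      obtain ⟨h1, h2⟩ := ih (LinearMap.range t) N (y.restrict he) (t.restrict het) y' ψ'
        (by
          intro x
          obtain ⟨z, rfl⟩ := hrep x
          exact Subtype.ext (hc (t z)))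
        (by
          intro x
          obtain ⟨z, rfl⟩ := hrep x
          apply Subtype.ext
          rw [hpow]
          have := ht z
          rw [pow_succ, Module.End.mul_apply] at this
          exact this)
        (by
          intro x hz
          obtain ⟨z, rfl⟩ := hrep x
          have hz' : t (t z) = 0 := congrArg Subtype.val hz
          obtain ⟨w, hw⟩ := hk _ hz'
          obtain ⟨e', rfl⟩ : ∃ e', e = e' + 1 := ⟨e - 1, by omega⟩
          refine ⟨⟨t w, LinearMap.mem_range_self t w⟩, Subtype.ext ?_⟩
          rw [hpow]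
          simp only [Nat.add_sub_cancel] at hw ⊢
          rw [hw, pow_succ, Module.End.mul_apply])
        (by
          intro n
          obtain ⟨m, rfl⟩ := hψ n
          exact ⟨⟨t m, LinearMap.mem_range_self t m⟩, hψ' m _⟩)
        (by
          intro x
          obtain ⟨z, rfl⟩ := hrep x
          rw [hψ', hker]
          constructor
          · rintro ⟨w, rfl⟩
            exact ⟨⟨t w, LinearMap.mem_range_self t w⟩, rfl⟩
          · rintro ⟨x', hw⟩
            obtain ⟨w, rfl⟩ := hrep x'
            have hw' : t z = t (t w) := congrArg Subtype.val hw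
            have h3 : z - t w ∈ LinearMap.ker ψ := hle (by
              rw [LinearMap.mem_ker, map_sub, hw', sub_self])
            rw [LinearMap.mem_ker, hker] at h3
            obtain ⟨w', hw'⟩ := h3
            exact ⟨w' + w, by rw [map_add, ← hw']; abel⟩)
        (by
          intro x
          obtain ⟨z, rfl⟩ := hrep x
          have : (y.restrict he) ⟨t z, LinearMap.mem_range_self t z⟩
              = ⟨t (y z), LinearMap.mem_range_self t (y z)⟩ := Subtype.ext (hc z)
          rw [this, hψ', hψ', hy])
      refine ⟨by rw [hdet, h1, pow_succ], ?_⟩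
      rw [← hrk, h2]; ring

end Filt

end Fermat.Agent.CAR.NR
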