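import Fermat.Agent.CAR.NR.Dict
import Fermat.Agent.CAR.NR.LinAlg

/-!
# CAR / NR : the special fibre `S / 𝔪 S ≅ ∏ W i / 𝔪 W i` and the reduction of norms
-/

set_option autoImplicit false
set_option linter.unusedSectionVars false

namespace Fermat.Agent.CAR.NR

open IsLocalRing Module

attribute [local instance] Ideal.Quotient.field

section One

variable (A : Type*) {L : Type*} [CommRing A] [IsDomain A] [IsDiscreteValuationRing A]
  [Field L] [Algebra A L]
  (W : ValuationSubring L) [Algebra A W] [IsScalarTower A W L] [IsLocalHom (algebraMap A W)]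

/-- `W / 𝔪 W`. -/
abbrev Mb : Type _ := W ⧸ (maximalIdeal A).map (algebraMap A W)

/-- the residue field of `W`. -/
abbrev kW : Type _ := W ⧸ maximalIdeal W

theorem map_le_maximalIdeal : (maximalIdeal A).map (algebraMap A W) ≤ maximalIdeal W :=
  ((IsLocalRing.local_hom_TFAE (algebraMap A W)).out 0 2).1
    (inferInstance : IsLocalHom (algebraMap A W))

/-- `W / 𝔪 W → W / 𝔪_W`, as a linear map over the residue field of `A`. -/
noncomputable def toRes : Mb A W →ₗ[A ⧸ maximalIdeal A] kW W :=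
  LinearMap.extendScalarsOfSurjective (R := A) Ideal.Quotient.mk_surjective
    (Ideal.Quotient.factorₐ A (map_le_maximalIdeal A W)).toLinearMap

theorem toRes_mk (w : W) : toRes A W (Ideal.Quotient.mk _ w) = Ideal.Quotient.mk _ w := rfl

/-- the norm on `W / 𝔪 W` and its dimension, for a discrete `W`. -/
theorem norm_Mb [Module.Finite (A ⧸ maximalIdeal A) (Mb A W)] (ϖ : W) (e : ℕ) (hϖ0 : ϖ ≠ 0)
    (hϖ : maximalIdeal W = Ideal.span {ϖ})
    (he : (maximalIdeal A).map (algebraMap A W) = Ideal.span {ϖ ^ e}) (w : W) :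
    Algebra.norm (A ⧸ maximalIdeal A) (Ideal.Quotient.mk _ w : Mb A W)
      = Algebra.norm (A ⧸ maximalIdeal A) (Ideal.Quotient.mk _ w : kW W) ^ e ∧
    finrank (A ⧸ maximalIdeal A) (Mb A W) = e * finrank (A ⧸ maximalIdeal A) (kW W) := by
  have he1 : 1 ≤ e := by
    rcases Nat.eq_zero_or_pos e with rfl | h
    · exfalso
      have h1 := map_le_maximalIdeal A W
      rw [he, pow_zero, Ideal.span_singleton_one] at h1
      exact (IsLocalRing.maximalIdeal.isMaximal W).ne_top (top_le_iff.1 h1)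
    · exact h
  have hpow : ∀ (j : ℕ) (x : Mb A W),
      ((Algebra.lmul (A ⧸ maximalIdeal A) (Mb A W) (Ideal.Quotient.mk _ ϖ)) ^ j) x
        = Ideal.Quotient.mk _ (ϖ ^ j) * x := by
    intro j x
    rw [← map_pow, ← map_pow]; rfl
  rw [Algebra.norm_apply, Algebra.norm_apply]
  refine filt_det e (Mb A W) (kW W)
    (Algebra.lmul (A ⧸ maximalIdeal A) (Mb A W) (Ideal.Quotient.mk _ w))
    (Algebra.lmul (A ⧸ maximalIdeal A) (Mb A W) (Ideal.Quotient.mk _ ϖ))
    (Algebra.lmul (A ⧸ maximalIdeal A) (kW W) (Ideal.Quotient.mk _ w)) (toRes A W)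
    ?_ ?_ ?_ ?_ ?_ ?_
  · intro x
    exact mul_left_comm _ _ _
  · intro x
    rw [hpow]
    have : (Ideal.Quotient.mk ((maximalIdeal A).map (algebraMap A W)) (ϖ ^ e)) = 0 := by
      rw [Ideal.Quotient.eq_zero_iff_mem, he]
      exact Ideal.mem_span_singleton_self _
    rw [this, zero_mul]
  · intro x hx
    obtain ⟨x, rfl⟩ := Ideal.Quotient.mk_surjective x
    have h1 : Ideal.Quotient.mk ((maximalIdeal A).map (algebraMap A W)) (ϖ * x) = 0 := by
      rw [map_mul]; exact hx
    rw [Ideal.Quotient.eq_zero_iff_mem, he, Ideal.mem_span_singleton] at h1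
    obtain ⟨c, hc⟩ := h1
    refine ⟨Ideal.Quotient.mk _ c, ?_⟩
    rw [hpow, ← map_mul]
    congr 1
    obtain ⟨e', rfl⟩ : ∃ e', e = e' + 1 := ⟨e - 1, by omega⟩
    rw [pow_succ', mul_assoc] at hc
    simpa using mul_left_cancel₀ hϖ0 hc
  · intro n
    obtain ⟨n, rfl⟩ := Ideal.Quotient.mk_surjective n
    exact ⟨Ideal.Quotient.mk _ n, rfl⟩
  · intro x
    obtain ⟨x, rfl⟩ := Ideal.Quotient.mk_surjective x
    rw [toRes_mk, Ideal.Quotient.eq_zero_iff_mem, hϖ, Ideal.mem_span_singleton]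
    constructor
    · rintro ⟨c, rfl⟩
      exact ⟨Ideal.Quotient.mk _ c, map_mul _ _ _⟩
    · rintro ⟨z, hz⟩
      obtain ⟨z, rfl⟩ := Ideal.Quotient.mk_surjective z
      have h1 : Ideal.Quotient.mk ((maximalIdeal A).map (algebraMap A W)) (x - ϖ * z) = 0 := by
        rw [map_sub, map_mul, sub_eq_zero]; exact hz
      rw [Ideal.Quotient.eq_zero_iff_mem] at h1
      have h2 := map_le_maximalIdeal A W h1
      rw [hϖ, Ideal.mem_span_singleton] at h2
      exact (dvd_sub_left (Dvd.intro z rfl)).1 h2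
  · intro x
    obtain ⟨x, rfl⟩ := Ideal.Quotient.mk_surjective x
    rfl

end One

section Family

variable (A S : Type*) {L : Type*} [CommRing A] [IsDomain A] [IsDiscreteValuationRing A]
  [CommRing S] [IsDedekindDomain S] [Field L] [Algebra A S] [Algebra S L] [Algebra A L]
  [IsScalarTower A S L] [IsFractionRing S L] [Module.Finite A S] [Module.Free A S]

/-- `S / 𝔪 S`. -/
abbrev Rb : Type _ := S ⧸ (maximalIdeal A).map (algebraMap A S)

section single

variable (W : ValuationSubring L) [Algebra A W] [IsScalarTower A W L]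
  [IsLocalHom (algebraMap A W)]

/-- `S / 𝔪 S → W / 𝔪 W`. -/
noncomputable def redA : Rb A S →ₐ[A] Mb A W :=
  Ideal.quotientMapₐ _ (incl A S W) (fun _ hx => incl_mem_map A S W hx)

theorem redA_mk (x : S) : redA A S W (Ideal.Quotient.mk _ x) = Ideal.Quotient.mk _ (incl A S W x) :=
  rfl

theorem redA_surjective : Function.Surjective (redA A S W) := by
  intro x
  obtain ⟨x, rfl⟩ := Ideal.Quotient.mk_surjective x
  obtain ⟨a, ha⟩ := exists_approx A S W x
  exact ⟨Ideal.Quotient.mk _ a, by rw [redA_mk]; exact Ideal.Quotient.eq.2 ha⟩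

include S in
theorem finite_Mb : Module.Finite (A ⧸ maximalIdeal A) (Mb A W) :=
  Module.Finite.of_surjective
    (LinearMap.extendScalarsOfSurjective (R := A) (S := A ⧸ maximalIdeal A)
      Ideal.Quotient.mk_surjective (redA A S W).toLinearMap) (redA_surjective A S W)

end single

variable {ι : Type*} [Fintype ι] (W : ι → ValuationSubring L) [∀ i, Algebra A (W i)]
  [∀ i, IsScalarTower A (W i) L] [∀ i, IsLocalHom (algebraMap A (W i))]

/-- `S / 𝔪 S → ∏ W i / 𝔪 W i`. -/
noncomputable def Psi : Rb A S →ₐ[A ⧸ maximalIdeal A] (∀ i, Mb A (W i)) :=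
  AlgHom.extendScalarsOfSurjective (R := A) Ideal.Quotient.mk_surjective
    (AlgHom.pi fun i => redA A S (W i))

theorem Psi_mk (x : S) (i : ι) :
    Psi A S W (Ideal.Quotient.mk _ x) i = Ideal.Quotient.mk _ (incl A S (W i) x) := rfl

theorem Psi_surjective (hW : Function.Injective W) : Function.Surjective (Psi A S W) := by
  intro x
  choose y hy using fun i => Ideal.Quotient.mk_surjective (x i)
  obtain ⟨s, hs⟩ := exists_approx_family A S W hW y
  refine ⟨Ideal.Quotient.mk _ s, funext fun i => ?_⟩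
  rw [Psi_mk, ← hy i]
  exact Ideal.Quotient.eq.2 (hs i)

theorem finrank_Rb : finrank (A ⧸ maximalIdeal A) (Rb A S) = finrank A S := by
  classical
  let b := Module.Free.chooseBasis A S
  rw [finrank_eq_card_basis b, finrank_eq_card_basis (basisQuotient b)]

variable (ϖ : ∀ i, W i) (e : ι → ℕ)

include S in
theorem finrank_pi_Mb (hϖ0 : ∀ i, ϖ i ≠ 0) (hϖ : ∀ i, maximalIdeal (W i) = Ideal.span {ϖ i})
    (he : ∀ i, (maximalIdeal A).map (algebraMap A (W i)) = Ideal.span {ϖ i ^ e i}) :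
    finrank (A ⧸ maximalIdeal A) (∀ i, Mb A (W i))
      = ∑ i, e i * finrank (A ⧸ maximalIdeal A) (kW (W i)) := by
  have hfin : ∀ i, Module.Finite (A ⧸ maximalIdeal A) (Mb A (W i)) := fun i => finite_Mb A S (W i)
  rw [Module.finrank_pi_fintype]
  exact Finset.sum_congr rfl fun i _ => (norm_Mb A (W i) (ϖ i) (e i) (hϖ0 i) (hϖ i) (he i) 0).2

/-- the fundamental inequality. -/
theorem fund_ineq (hW : Function.Injective W) (hϖ0 : ∀ i, ϖ i ≠ 0)
    (hϖ : ∀ i, maximalIdeal (W i) = Ideal.span {ϖ i})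
    (he : ∀ i, (maximalIdeal A).map (algebraMap A (W i)) = Ideal.span {ϖ i ^ e i}) :
    ∑ i, e i * finrank (A ⧸ maximalIdeal A) (kW (W i)) ≤ finrank A S := by
  rw [← finrank_pi_Mb A S W ϖ e hϖ0 hϖ he, ← finrank_Rb A S]
  exact LinearMap.finrank_le_finrank_of_surjective (f := (Psi A S W).toLinearMap)
    (Psi_surjective A S W hW)

theorem Psi_bijective (hW : Function.Injective W) (hϖ0 : ∀ i, ϖ i ≠ 0)
    (hϖ : ∀ i, maximalIdeal (W i) = Ideal.span {ϖ i})
    (he : ∀ i, (maximalIdeal A).map (algebraMap A (W i)) = Ideal.span {ϖ i ^ e i})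
    (hn : finrank A S ≤ ∑ i, e i * finrank (A ⧸ maximalIdeal A) (kW (W i))) :
    Function.Bijective (Psi A S W) := by
  have hfin : ∀ i, Module.Finite (A ⧸ maximalIdeal A) (Mb A (W i)) := fun i => finite_Mb A S (W i)
  have hs := Psi_surjective A S W hW
  have heq : finrank (A ⧸ maximalIdeal A) (Rb A S)
      = finrank (A ⧸ maximalIdeal A) (∀ i, Mb A (W i)) := by
    rw [finrank_pi_Mb A S W ϖ e hϖ0 hϖ he, finrank_Rb A S]
    exact le_antisymm hn (fund_ineq A S W ϖ e hW hϖ0 hϖ he)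
  exact ⟨(LinearMap.injective_iff_surjective_of_finrank_eq_finrank
    (f := (Psi A S W).toLinearMap) heq).2 hs, hs⟩

/-- **reduction of the norm** (intrinsic form). -/
theorem mk_norm (hW : Function.Injective W) (hϖ0 : ∀ i, ϖ i ≠ 0)
    (hϖ : ∀ i, maximalIdeal (W i) = Ideal.span {ϖ i})
    (he : ∀ i, (maximalIdeal A).map (algebraMap A (W i)) = Ideal.span {ϖ i ^ e i})
    (hn : finrank A S ≤ ∑ i, e i * finrank (A ⧸ maximalIdeal A) (kW (W i))) (y : S) :
    Ideal.Quotient.mk (maximalIdeal A) (Algebra.norm A y)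
      = ∏ i, Algebra.norm (A ⧸ maximalIdeal A)
          (Ideal.Quotient.mk _ (incl A S (W i) y) : kW (W i)) ^ e i := by
  have hfin : ∀ i, Module.Finite (A ⧸ maximalIdeal A) (Mb A (W i)) := fun i => finite_Mb A S (W i)
  let E : Rb A S ≃ₐ[A ⧸ maximalIdeal A] (∀ i, Mb A (W i)) :=
    AlgEquiv.ofBijective (Psi A S W) (Psi_bijective A S W ϖ e hW hϖ0 hϖ he hn)
  rw [← norm_quotient_mk, ← Algebra.norm_eq_of_algEquiv E, norm_pi]
  refine Finset.prod_congr rfl fun i _ => ?_
  exact (norm_Mb A (W i) (ϖ i) (e i) (hϖ0 i) (hϖ i) (he i) (incl A S (W i) y)).1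

end Family

end Fermat.Agent.CAR.NR
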