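import Fermat.Agent.CAR.NR.Core

/-!
# CAR / NR : consequences of `S / 𝔪 S ≅ ∏ W i / 𝔪 W i`; the valuation of a norm
-/

set_option autoImplicit false
set_option linter.unusedSectionVars false

namespace Fermat.Agent.CAR.NR

open IsLocalRing Module

attribute [local instance] Ideal.Quotient.field

section single

variable (A S : Type*) {L : Type*} [CommRing A] [IsDomain A] [IsDiscreteValuationRing A]
  [CommRing S] [IsDedekindDomain S] [Field L] [Algebra A S] [Algebra S L] [Algebra A L]
  [IsScalarTower A S L] [IsFractionRing S L] [Module.Finite A S] [Module.Free A S]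
  (W : ValuationSubring L) [Algebra A W] [IsScalarTower A W L] [IsLocalHom (algebraMap A W)]

include A S in
theorem isDVR : IsDiscreteValuationRing W := by
  let _ : Algebra S W := (incl A S W).toRingHom.toAlgebra
  have hloc : IsLocalization.AtPrime W (ctr A S W) := by
    refine (isLocalization_iff _ _).2 ⟨?_, ?_, ?_⟩
    · rintro ⟨y, hy⟩
      exact isUnit_incl A W hy
    · intro z
      obtain ⟨a, s, hs, h⟩ := exists_frac A S W z z.2
      exact ⟨(a, ⟨s, hs⟩), Subtype.ext h⟩
    · intro x y hxy
      refine ⟨1, ?_⟩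
      have h1 : algebraMap S L x = algebraMap S L y := congrArg Subtype.val hxy
      rw [IsFractionRing.injective S L h1]
  exact IsLocalization.AtPrime.isDiscreteValuationRing_of_dedekind_domain S (ctr_ne_bot A S W) W

theorem incl_injective : Function.Injective (incl A S W) := by
  intro x y h
  exact IsFractionRing.injective S L (congrArg Subtype.val h)

include S in
theorem algebraMap_W_injective : Function.Injective (algebraMap A W) := by
  intro x y h
  have h1 : incl A S W (algebraMap A S x) = incl A S W (algebraMap A S y) := by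
    rw [(incl A S W).commutes, (incl A S W).commutes, h]
  exact FaithfulSMul.algebraMap_injective A S (incl_injective A S W h1)

include S in
theorem map_ne_bot : (maximalIdeal A).map (algebraMap A W) ≠ ⊥ := by
  intro h
  obtain ⟨π, hπ⟩ := IsDiscreteValuationRing.exists_irreducible A
  have h2 : algebraMap A W π ∈ (maximalIdeal A).map (algebraMap A W) :=
    Ideal.mem_map_of_mem _ ((IsLocalRing.mem_maximalIdeal _).2 hπ.not_isUnit)
  rw [h, Ideal.mem_bot] at h2
  exact hπ.ne_zero (algebraMap_W_injective A S W (by rw [h2, map_zero]))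

include S in
/-- uniformiser and exact ramification index. -/
theorem exists_unif : ∃ (ϖ : W) (e : ℕ), Irreducible ϖ ∧ maximalIdeal W = Ideal.span {ϖ} ∧
    (maximalIdeal A).map (algebraMap A W) = Ideal.span {ϖ ^ e} := by
  have := isDVR A S W
  obtain ⟨ϖ, hϖ⟩ := IsDiscreteValuationRing.exists_irreducible W
  obtain ⟨e, he⟩ := IsDiscreteValuationRing.ideal_eq_span_pow_irreducible (map_ne_bot A S W) hϖ
  exact ⟨ϖ, e, hϖ, hϖ.maximalIdeal_eq, he⟩

/-- the residue field of `W` is the residue field of its centre. -/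
theorem finrank_quot_ctr :
    finrank (A ⧸ maximalIdeal A) (S ⧸ ctr A S W) = finrank (A ⧸ maximalIdeal A) (kW W) := by
  let φ : (S ⧸ ctr A S W) →ₐ[A] kW W :=
    Ideal.quotientMapₐ (maximalIdeal W) (incl A S W) le_rfl
  have hinj : Function.Injective φ := Ideal.quotientMap_injective
  have hsurj : Function.Surjective φ := by
    intro x
    obtain ⟨x, rfl⟩ := Ideal.Quotient.mk_surjective x
    obtain ⟨a, ha⟩ := exists_approx A S W x
    exact ⟨Ideal.Quotient.mk _ a, Ideal.Quotient.eq.2 (map_le_maximalIdeal A W ha)⟩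
  let ψ : (S ⧸ ctr A S W) →ₗ[A ⧸ maximalIdeal A] kW W :=
    LinearMap.extendScalarsOfSurjective (R := A) Ideal.Quotient.mk_surjective φ.toLinearMap
  exact (LinearEquiv.ofBijective ψ ⟨hinj, hsurj⟩).finrank_eq

theorem mem_pow_ctr_iff (ϖ : W) (hϖ : maximalIdeal W = Ideal.span {ϖ}) (a : ℕ) (x : S) :
    x ∈ ctr A S W ^ a ↔ ϖ ^ a ∣ incl A S W x := by
  constructor
  · intro hx
    have h1 : incl A S W x ∈ (ctr A S W ^ a).map (incl A S W) := Ideal.mem_map_of_mem _ hx
    rw [Ideal.map_pow] at h1
    have h2 : (ctr A S W).map (incl A S W) ≤ maximalIdeal W := Ideal.map_comap_le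
    have h3 := Ideal.pow_right_mono h2 a h1
    rwa [hϖ, Ideal.span_singleton_pow, Ideal.mem_span_singleton] at h3
  · rintro ⟨w, hw⟩
    obtain ⟨b, s, hs, hbs⟩ := exists_frac A S W ϖ ϖ.2
    obtain ⟨c, s', hs', hcs⟩ := exists_frac A S W w w.2
    have hb : incl A S W b = ϖ * incl A S W s := Subtype.ext hbs.symm
    have hc : incl A S W c = w * incl A S W s' := Subtype.ext hcs.symm
    have hbP : b ∈ ctr A S W := by
      rw [mem_ctr, hb, hϖ]
      exact Ideal.mul_mem_right _ _ (Ideal.mem_span_singleton_self ϖ)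
    have h1 : x * (s ^ a * s') = b ^ a * c := by
      apply incl_injective A S W
      rw [map_mul, map_mul, map_mul, map_pow, map_pow, hw, hb, hc]; ring
    have h2 : x * (s ^ a * s') ∈ ctr A S W ^ a := by
      rw [h1]
      exact Ideal.mul_mem_right _ _ (Ideal.pow_mem_pow hbP a)
    have h3 : s ^ a * s' ∉ ctr A S W := fun h =>
      ((ctr_isPrime A S W).mem_or_mem h).elim
        (fun h' => hs ((ctr_isPrime A S W).mem_of_pow_mem a h')) hs'
    obtain ⟨u, p, hp, hup⟩ := (ctr_isMaximal A S W).exists_inv h3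
    obtain ⟨d, hd⟩ := sub_dvd_pow_sub_pow 1 p a
    have h4 : x = x * (s ^ a * s') * (u * d) + x * p ^ a := by
      have h5 : (s ^ a * s') * (u * d) = 1 - p ^ a := by
        rw [one_pow] at hd
        rw [hd, ← hup]; ring
      rw [mul_assoc, h5]; ring
    rw [h4]
    exact Ideal.add_mem _ (Ideal.mul_mem_right _ _ h2)
      (Ideal.mul_mem_left _ _ (Ideal.pow_mem_pow hp a))

end single

section Family

variable (A S : Type*) {L : Type*} [CommRing A] [IsDomain A] [IsDiscreteValuationRing A]
  [CommRing S] [IsDedekindDomain S] [Field L] [Algebra A S] [Algebra S L] [Algebra A L]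
  [IsScalarTower A S L] [IsFractionRing S L] [Module.Finite A S] [Module.Free A S]
  {ι : Type*} [Fintype ι] (W : ι → ValuationSubring L) [∀ i, Algebra A (W i)]
  [∀ i, IsScalarTower A (W i) L] [∀ i, IsLocalHom (algebraMap A (W i))]

theorem mem_map_of_forall (hinj : Function.Injective (Psi A S W)) (y : S)
    (h : ∀ i, incl A S (W i) y ∈ (maximalIdeal A).map (algebraMap A (W i))) :
    y ∈ (maximalIdeal A).map (algebraMap A S) := by
  rw [← Ideal.Quotient.eq_zero_iff_mem]
  apply hinj
  rw [map_zero]
  funext i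
  rw [Psi_mk]
  exact Ideal.Quotient.eq_zero_iff_mem.2 (h i)

/-- `⋂ W i = S`. -/
theorem mem_range_of_forall_mem (hinj : Function.Injective (Psi A S W)) (x : L)
    (hx : ∀ i, x ∈ W i) : ∃ s : S, algebraMap S L s = x := by
  obtain ⟨π, hπ⟩ := IsDiscreteValuationRing.exists_irreducible A
  have hπL : algebraMap A L π ≠ 0 := by
    rw [IsScalarTower.algebraMap_apply A S L]
    intro h
    have h1 : algebraMap A S π = 0 := IsFractionRing.injective S L (by rw [h, map_zero])
    exact hπ.ne_zero (FaithfulSMul.algebraMap_injective A S (by rw [h1, map_zero]))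
  have key : ∀ (k : ℕ) (x : L), (∀ i, x ∈ W i) →
      (∃ s : S, algebraMap S L s = algebraMap A L π ^ k * x) → ∃ s : S, algebraMap S L s = x := by
    intro k
    induction k with
    | zero =>
      rintro x _ ⟨s, hs⟩
      exact ⟨s, by rw [hs, pow_zero, one_mul]⟩
    | succ k ih =>
      rintro x hx ⟨s, hs⟩
      apply ih x hx
      have h1 : s ∈ (maximalIdeal A).map (algebraMap A S) := by
        apply mem_map_of_forall A S W hinj
        intro i
        have hmem : algebraMap A L π ^ k * x ∈ W i := by
          apply mul_mem _ (hx i)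
          apply pow_mem
          rw [IsScalarTower.algebraMap_apply A (W i) L]
          exact Subtype.mem _
        have h2 : incl A S (W i) s = algebraMap A (W i) π * ⟨_, hmem⟩ := by
          apply Subtype.ext
          change algebraMap S L s = algebraMap (W i) L (algebraMap A (W i) π) * _
          rw [hs, ← IsScalarTower.algebraMap_apply A (W i) L, pow_succ']
          ring
        rw [h2]
        exact Ideal.mul_mem_right _ _ (Ideal.mem_map_of_mem _
          ((IsLocalRing.mem_maximalIdeal _).2 hπ.not_isUnit))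
      rw [hπ.maximalIdeal_eq, Ideal.map_span, Set.image_singleton,
        Ideal.mem_span_singleton] at h1
      obtain ⟨s', rfl⟩ := h1
      refine ⟨s', ?_⟩
      rw [map_mul, ← IsScalarTower.algebraMap_apply A S L, pow_succ', mul_assoc] at hs
      exact mul_left_cancel₀ hπL hs
  obtain ⟨a, b, hb, rfl⟩ := IsFractionRing.div_surjective (A := S) x
  have hb0 : b ≠ 0 := nonZeroDivisors.ne_zero hb
  have hbL : algebraMap S L b ≠ 0 := by simpa using hb0
  have h1 := Ideal.comap_ne_bot_of_integral_mem (R := A) (I := Ideal.span {b}) hb0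
    (Ideal.mem_span_singleton_self b) (Algebra.IsIntegral.isIntegral b)
  obtain ⟨c, hc, hc0⟩ := Submodule.exists_mem_ne_zero_of_ne_bot h1
  rw [Ideal.mem_comap, Ideal.mem_span_singleton] at hc
  obtain ⟨b', hb'⟩ := hc
  obtain ⟨k, hk⟩ := IsDiscreteValuationRing.associated_pow_irreducible hc0 hπ
  obtain ⟨u, hu⟩ := hk
  refine key k _ hx ⟨a * b' * algebraMap A S u, ?_⟩
  have h2 : algebraMap A L π ^ k = algebraMap S L (b * b') * algebraMap S L (algebraMap A S u) := by
    rw [← hb', ← map_mul, ← map_mul, hu, map_pow, map_pow,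
      ← IsScalarTower.algebraMap_apply A S L]
  rw [h2, map_mul, map_mul, map_mul]
  field_simp

/-- the `W i` are all the valuation rings of `L` dominating `A`. -/
theorem exists_eq_of_dominates (hinj : Function.Injective (Psi A S W))
    (W' : ValuationSubring L) [Algebra A W'] [IsScalarTower A W' L]
    [IsLocalHom (algebraMap A W')] : ∃ i, W' = W i := by
  classical
  have h1 : (Finset.univ.inf fun i =>
      ((maximalIdeal A).map (algebraMap A (W i))).comap (incl A S (W i))) ≤ ctr A S W' := by
    intro y hy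
    have h2 : y ∈ (maximalIdeal A).map (algebraMap A S) := by
      apply mem_map_of_forall A S W hinj
      intro i
      have hle : (Finset.univ.inf fun i =>
          ((maximalIdeal A).map (algebraMap A (W i))).comap (incl A S (W i)))
          ≤ ((maximalIdeal A).map (algebraMap A (W i))).comap (incl A S (W i)) :=
        Finset.inf_le (Finset.mem_univ i)
      exact hle hy
    exact map_le_maximalIdeal A W' (incl_mem_map A S W' h2)
  obtain ⟨i, -, hi⟩ := (Ideal.IsPrime.inf_le' (ctr_isPrime A S W')).1 h1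
  refine ⟨i, ?_⟩
  have h3 : ctr A S (W i) ≤ ctr A S W' := by
    intro p hp
    obtain ⟨k, hk⟩ := pow_mem_of_mem_ctr A S (W i) hp
    have : p ^ k ∈ ctr A S W' := hi (by rw [Ideal.mem_comap, map_pow]; exact hk)
    exact (ctr_isPrime A S W').mem_of_pow_mem k this
  have h4 : ctr A S (W i) = ctr A S W' :=
    (ctr_isMaximal A S (W i)).eq_of_le (ctr_isPrime A S W').ne_top h3
  exact le_antisymm (le_of_ctr_eq A S W' (W i) h4.symm) (le_of_ctr_eq A S (W i) W' h4)

theorem ctr_injective (hW : Function.Injective W) :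
    Function.Injective fun i => ctr A S (W i) := by
  intro i j h
  exact hW (le_antisymm (le_of_ctr_eq A S (W i) (W j) h) (le_of_ctr_eq A S (W j) (W i) h.symm))

theorem span_eq_prod (hW : Function.Injective W) (hinj : Function.Injective (Psi A S W))
    (ϖ : ∀ i, W i) (hϖ0 : ∀ i, ϖ i ≠ 0) (hϖ : ∀ i, maximalIdeal (W i) = Ideal.span {ϖ i})
    (z : S) (a : ι → ℕ) (hz : ∀ i, Associated (incl A S (W i) z) (ϖ i ^ a i)) :
    Ideal.span {z} = ∏ i, ctr A S (W i) ^ a i := by
  have hcop : ((Finset.univ : Finset ι) : Set ι).Pairwise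
      (Function.onFun IsCoprime fun i => ctr A S (W i) ^ a i) := by
    intro i _ j _ hij
    apply IsCoprime.pow
    rw [Ideal.isCoprime_iff_sup_eq]
    exact (ctr_isMaximal A S (W i)).coprime_of_ne (ctr_isMaximal A S (W j))
      (fun h => hij (ctr_injective A S W hW h))
  rw [Ideal.prod_eq_iInf_of_pairwise_isCoprime hcop]
  have hz0 : z ≠ 0 := by
    rintro rfl
    rcases isEmpty_or_nonempty ι with hι | ⟨⟨i⟩⟩
    · -- then `S / 𝔪 S` is trivial
      have h1 : (1 : S) ∈ (maximalIdeal A).map (algebraMap A S) :=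
        mem_map_of_forall A S W hinj 1 fun i => (hι.false i).elim
      obtain ⟨Q, hQ, hQ'⟩ := Ideal.exists_ideal_over_maximal_of_isIntegral (S := S)
        (maximalIdeal A) (by
          rw [(RingHom.injective_iff_ker_eq_bot _).1 (FaithfulSMul.algebraMap_injective A S)]
          exact bot_le)
      have h2 : (maximalIdeal A).map (algebraMap A S) ≤ Q := by
        rw [Ideal.map_le_iff_le_comap, hQ']
      exact hQ.ne_top ((Ideal.eq_top_iff_one _).2 (h2 h1))
    · have := hz i
      rw [map_zero] at this
      exact pow_ne_zero _ (hϖ0 i) (this.symm.eq_zero_iff.2 rfl) -- placeholder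
  apply le_antisymm
  · rw [Ideal.span_singleton_le_iff_mem]
    simp only [Ideal.mem_iInf]
    intro i _
    rw [mem_pow_ctr_iff A S (W i) (ϖ i) (hϖ i)]
    exact (hz i).symm.dvd
  · intro x hx
    simp only [Ideal.mem_iInf] at hx
    have hzL : algebraMap S L z ≠ 0 := by simpa using hz0
    obtain ⟨s, hs⟩ := mem_range_of_forall_mem A S W hinj (algebraMap S L x / algebraMap S L z) (by
      intro i
      have h1 := (mem_pow_ctr_iff A S (W i) (ϖ i) (hϖ i) (a i) x).1 (hx i (Finset.mem_univ i))
      obtain ⟨w, hw⟩ := (hz i).dvd.trans h1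
      have h2 : algebraMap S L x = algebraMap S L z * (w : L) := congrArg Subtype.val hw
      rw [h2, mul_div_cancel_left₀ _ hzL]
      exact w.2)
    rw [Ideal.mem_span_singleton]
    refine ⟨s, IsFractionRing.injective S L ?_⟩
    rw [map_mul, hs, mul_div_cancel₀ _ hzL]

/-- **the valuation of a norm** (core form). -/
theorem norm_associated [PerfectField (FractionRing A)]
    (hW : Function.Injective W) (hinj : Function.Injective (Psi A S W))
    (ϖ : ∀ i, W i) (hϖ0 : ∀ i, ϖ i ≠ 0) (hϖ : ∀ i, maximalIdeal (W i) = Ideal.span {ϖ i})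
    (π : A) (hπ : Irreducible π)
    (z : S) (a : ι → ℕ) (hz : ∀ i, Associated (incl A S (W i) z) (ϖ i ^ a i)) :
    Associated (Algebra.norm A z)
      (π ^ ∑ i, finrank (A ⧸ maximalIdeal A) (kW (W i)) * a i) := by
  have h1 := congrArg (Ideal.relNorm A) (span_eq_prod A S W hW hinj ϖ hϖ0 hϖ z a hz)
  rw [Ideal.relNorm_singleton, map_prod, Algebra.intNorm_eq_norm] at h1
  have h2 : ∀ i, Ideal.relNorm A (ctr A S (W i) ^ a i)
      = Ideal.span {π ^ (finrank (A ⧸ maximalIdeal A) (kW (W i)) * a i)} := by
    intro i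
    rw [map_pow, Ideal.relNorm_eq_pow_of_isMaximal (ctr A S (W i)) (maximalIdeal A),
      Ideal.inertiaDeg_eq_of_isMaximal (maximalIdeal A) (ctr A S (W i)), finrank_quot_ctr]
    generalize finrank (A ⧸ maximalIdeal A) (kW (W i)) = f
    rw [hπ.maximalIdeal_eq, Ideal.span_singleton_pow, Ideal.span_singleton_pow, ← pow_mul]
  rw [Finset.prod_congr rfl fun i _ => h2 i, Ideal.prod_span_singleton,
    Finset.prod_pow_eq_pow_sum, Ideal.span_singleton_eq_span_singleton] at h1
  exact h1

end Family

end Fermat.Agent.CAR.NR
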