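import Mathlib

/-!
# CAR / NR : valuation rings of `L` over a DVR `A` versus maximal ideals of the integral closure `S`
-/

set_option autoImplicit false
set_option linter.unusedSectionVars false

namespace Fermat.Agent.CAR.NR

open IsLocalRing

section Dedekind

variable {S L : Type*} [CommRing S] [IsDedekindDomain S] [Field L] [Algebra S L]
  [IsFractionRing S L]

/-- the localisation of a Dedekind domain at a nonzero prime is a valuation ring, elementwise. -/
theorem frac_dichotomy (P : Ideal S) [P.IsPrime] (hP : P ≠ ⊥) (x : L) (hx : x ≠ 0) :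
    ∃ c s : S, s ∉ P ∧ (x * algebraMap S L s = algebraMap S L c ∨
      (x⁻¹ * algebraMap S L s = algebraMap S L c ∧ c ∈ P)) := by
  obtain ⟨a, b, hb, rfl⟩ := IsFractionRing.div_surjective (A := S) x
  have hb0 : b ≠ 0 := nonZeroDivisors.ne_zero hb
  have ha0 : a ≠ 0 := by
    rintro rfl
    simp at hx
  have hbL : algebraMap S L b ≠ 0 := by
    simpa using hb0
  have haL : algebraMap S L a ≠ 0 := by
    simpa using ha0
  have hirr : Irreducible P := (Ideal.prime_of_isPrime hP inferInstance).irreducible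
  have hI0 : Ideal.span {a} ≠ (0 : Ideal S) := by
    simpa [Ideal.zero_eq_bot, Ideal.span_singleton_eq_bot] using ha0
  have hJ0 : Ideal.span {b} ≠ (0 : Ideal S) := by
    simpa [Ideal.zero_eq_bot, Ideal.span_singleton_eq_bot] using hb0
  obtain ⟨n, I', hI', hI⟩ := WfDvdMonoid.max_power_factor hI0 hirr
  obtain ⟨m, J', hJ', hJ⟩ := WfDvdMonoid.max_power_factor hJ0 hirr
  rw [Ideal.dvd_iff_le] at hI' hJ'
  rcases le_or_gt m n with hmn | hmn
  · obtain ⟨s, hsJ, hsP⟩ := SetLike.not_le_iff_exists.1 hJ'
    have h1 : a * s ∈ Ideal.span {b} := by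
      rw [hJ]
      have h2 : a ∈ P ^ m := by
        have : a ∈ Ideal.span {a} := Ideal.mem_span_singleton_self a
        rw [hI] at this
        exact Ideal.pow_le_pow_right hmn (Ideal.mul_le_left this)
      exact Ideal.mul_mem_mul h2 hsJ
    obtain ⟨c, hc⟩ := Ideal.mem_span_singleton'.1 h1
    refine ⟨c, s, hsP, Or.inl ?_⟩
    rw [div_mul_eq_mul_div, div_eq_iff hbL, ← map_mul, ← map_mul, hc]
  · obtain ⟨s, hsI, hsP⟩ := SetLike.not_le_iff_exists.1 hI'
    have h1 : b * s ∈ Ideal.span {a} * P := by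
      rw [hI]
      have h2 : b ∈ P ^ (n + 1) := by
        have : b ∈ Ideal.span {b} := Ideal.mem_span_singleton_self b
        rw [hJ] at this
        exact Ideal.pow_le_pow_right hmn (Ideal.mul_le_left this)
      have h3 : b * s ∈ P ^ (n + 1) * I' := Ideal.mul_mem_mul h2 hsI
      have h4 : P ^ (n + 1) * I' = P ^ n * I' * P := by
        rw [pow_succ]; ring
      rwa [h4] at h3
    obtain ⟨c, hcP, hc⟩ := Ideal.mem_span_singleton_mul.1 h1
    refine ⟨c, s, hsP, Or.inr ⟨?_, hcP⟩⟩
    rw [inv_div, div_mul_eq_mul_div, div_eq_iff haL, ← map_mul, ← map_mul, ← hc, mul_comm]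

end Dedekind

section Val

variable (A S : Type*) {L : Type*} [CommRing A] [IsDomain A] [IsDiscreteValuationRing A]
  [CommRing S] [IsDedekindDomain S] [Field L] [Algebra A S] [Algebra S L] [Algebra A L]
  [IsScalarTower A S L] [IsFractionRing S L] [Module.Finite A S] [Module.Free A S]
  (W : ValuationSubring L) [Algebra A W] [IsScalarTower A W L] [IsLocalHom (algebraMap A W)]

include A in
theorem mem_of_S (x : S) : algebraMap S L x ∈ W := by
  have h1 : IsIntegral A (algebraMap S L x) :=
    (Algebra.IsIntegral.isIntegral (R := A) x).map (IsScalarTower.toAlgHom A S L)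
  have h2 : IsIntegral W (algebraMap S L x) := h1.tower_top
  obtain ⟨y, hy⟩ := IsIntegrallyClosed.isIntegral_iff.1 h2
  rw [← hy]; exact y.2

/-- the inclusion `S → W`. -/
def incl : S →ₐ[A] W where
  toFun x := ⟨algebraMap S L x, mem_of_S A S W x⟩
  map_one' := Subtype.ext (map_one _)
  map_mul' x y := Subtype.ext (map_mul _ x y)
  map_zero' := Subtype.ext (map_zero _)
  map_add' x y := Subtype.ext (map_add _ x y)
  commutes' a := Subtype.ext (by
    change algebraMap S L (algebraMap A S a) = algebraMap W L (algebraMap A W a)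
    rw [← IsScalarTower.algebraMap_apply A S L, ← IsScalarTower.algebraMap_apply A W L])

@[simp] theorem incl_coe (x : S) : ((incl A S W x : W) : L) = algebraMap S L x := rfl

/-- the centre of `W` on `S`. -/
def ctr : Ideal S := (maximalIdeal W).comap (incl A S W)

variable {A S} in
theorem mem_ctr {x : S} : x ∈ ctr A S W ↔ incl A S W x ∈ maximalIdeal W := Iff.rfl

instance ctr_isPrime : (ctr A S W).IsPrime :=
  Ideal.comap_isPrime _ _

theorem ctr_comap :
    (ctr A S W).comap (algebraMap A S) = maximalIdeal A := by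
  have h := ((IsLocalRing.local_hom_TFAE (algebraMap A W)).out 0 4).1
    (inferInstance : IsLocalHom (algebraMap A W))
  rw [← h]
  ext a
  rw [Ideal.mem_comap, Ideal.mem_comap, mem_ctr, (incl A S W).commutes a]

instance ctr_isMaximal : (ctr A S W).IsMaximal := by
  apply Ideal.isMaximal_of_isIntegral_of_isMaximal_comap (R := A)
  rw [ctr_comap]
  infer_instance

instance ctr_liesOver : (ctr A S W).LiesOver (maximalIdeal A) :=
  ⟨(ctr_comap A S W).symm⟩

theorem ctr_ne_bot : ctr A S W ≠ ⊥ := by
  intro h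
  have h1 := ctr_comap A S W
  rw [h] at h1
  obtain ⟨π, hπ⟩ := IsDiscreteValuationRing.exists_irreducible A
  have h2 : π ∈ maximalIdeal A := (IsLocalRing.mem_maximalIdeal _).2 hπ.not_isUnit
  rw [← h1, Ideal.mem_comap, Ideal.mem_bot] at h2
  have h3 : Function.Injective (algebraMap A S) := FaithfulSMul.algebraMap_injective A S
  exact hπ.ne_zero (h3 (by rw [h2, map_zero]))

variable {S} in
theorem isUnit_incl {s : S} (hs : s ∉ ctr A S W) : IsUnit (incl A S W s) := by
  by_contra h
  exact hs ((IsLocalRing.mem_maximalIdeal _).2 h)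

/-- `W` is the localisation of `S` at its centre. -/
theorem exists_frac (x : L) (hx : x ∈ W) :
    ∃ a s : S, s ∉ ctr A S W ∧ x * algebraMap S L s = algebraMap S L a := by
  rcases eq_or_ne x 0 with rfl | hx0
  · exact ⟨0, 1, fun h => (ctr_isPrime A S W).ne_top
      ((Ideal.eq_top_iff_one _).2 h), by simp⟩
  obtain ⟨c, s, hs, h | ⟨h, hc⟩⟩ :=
    frac_dichotomy (ctr A S W) (ctr_ne_bot A S W) x hx0
  · exact ⟨c, s, hs, h⟩
  · exfalso
    -- `x⁻¹ = c / s` lies in the maximal ideal of `W`
    obtain ⟨u, hu⟩ := isUnit_incl A W hs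
    have h1 : (⟨x, hx⟩ : W) * incl A S W c = incl A S W s := by
      apply Subtype.ext
      change x * algebraMap S L c = algebraMap S L s
      rw [← h, ← mul_assoc, mul_inv_cancel₀ hx0, one_mul]
    have h2 : incl A S W s ∈ maximalIdeal W := by
      rw [← h1]
      exact Ideal.mul_mem_left _ _ hc
    exact hs h2

/-- the centre determines `W`. -/
theorem le_of_ctr_eq (W' : ValuationSubring L) [Algebra A W'] [IsScalarTower A W' L]
    [IsLocalHom (algebraMap A W')] (h : ctr A S W = ctr A S W') :
    W ≤ W' := by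
  intro x hx
  obtain ⟨a, s, hs, hxs⟩ := exists_frac A S W x hx
  rw [h] at hs
  obtain ⟨u, hu⟩ := isUnit_incl A W' hs
  have hs0 : algebraMap S L s ≠ 0 := by
    intro h0
    apply hs
    have : s = 0 := by simpa using h0
    rw [this]; exact Ideal.zero_mem _
  have h1 : x = ((incl A S W' a * ((u⁻¹ : (W')ˣ) : W') : W') : L) := by
    have h2 : (((u⁻¹ : (W')ˣ) : W') : L) * algebraMap S L s = 1 := by
      have h3 : ((u⁻¹ : (W')ˣ) : W') * (u : W') = 1 := u.inv_mul
      rw [hu] at h3
      exact congrArg Subtype.val h3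
    change x = algebraMap S L a * (((u⁻¹ : (W')ˣ) : W') : L)
    rw [← hxs, mul_assoc, mul_comm (algebraMap S L s), h2, mul_one]
  rw [h1]
  exact Subtype.mem _

attribute [local instance] Ideal.Quotient.field

theorem incl_mem_map {x : S} (hx : x ∈ (maximalIdeal A).map (algebraMap A S)) :
    incl A S W x ∈ (maximalIdeal A).map (algebraMap A W) := by
  have h : (maximalIdeal A).map (algebraMap A S)
      ≤ ((maximalIdeal A).map (algebraMap A W)).comap (incl A S W) := by
    rw [Ideal.map_le_iff_le_comap]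
    intro a ha
    rw [Ideal.mem_comap, Ideal.mem_comap, (incl A S W).commutes a]
    exact Ideal.mem_map_of_mem _ ha
  exact h hx

instance finite_quot : Module.Finite (A ⧸ maximalIdeal A)
    (S ⧸ (maximalIdeal A).map (algebraMap A S)) :=
  Module.Finite.of_restrictScalars_finite A _ _

/-- every element of the centre is nilpotent modulo `𝔪 W`. -/
theorem pow_mem_of_mem_ctr {p : S} (hp : p ∈ ctr A S W) :
    ∃ k : ℕ, incl A S W p ^ k ∈ (maximalIdeal A).map (algebraMap A W) := by
  have hart : IsArtinianRing (S ⧸ (maximalIdeal A).map (algebraMap A S)) :=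
    IsArtinianRing.of_finite (A ⧸ maximalIdeal A) _
  obtain ⟨n, y, hy⟩ := IsArtinian.exists_pow_succ_smul_dvd
    (Ideal.Quotient.mk ((maximalIdeal A).map (algebraMap A S)) p)
    (1 : S ⧸ (maximalIdeal A).map (algebraMap A S))
  obtain ⟨y, rfl⟩ := Ideal.Quotient.mk_surjective y
  rw [smul_eq_mul, smul_eq_mul, mul_one, ← map_pow, ← map_pow, ← map_mul,
    Ideal.Quotient.eq] at hy
  have h1 := incl_mem_map A S W hy
  refine ⟨n, ?_⟩
  have h2 : incl A S W (p ^ n.succ * y - p ^ n)
      = incl A S W p ^ n * (incl A S W p * incl A S W y - 1) := by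
    rw [map_sub, map_mul, map_pow, map_pow, pow_succ]; ring
  rw [h2] at h1
  have h3 : IsUnit (incl A S W p * incl A S W y - 1) := by
    by_contra hnu
    have h4 : incl A S W p * incl A S W y - 1 ∈ maximalIdeal W :=
      (IsLocalRing.mem_maximalIdeal _).2 hnu
    have h5 : incl A S W p * incl A S W y ∈ maximalIdeal W := Ideal.mul_mem_right _ _ hp
    have h6 : (1 : W) ∈ maximalIdeal W := by
      have := Ideal.sub_mem _ h5 h4
      rwa [sub_sub_cancel] at this
    exact (Ideal.ne_top_iff_one _).1 (IsLocalRing.maximalIdeal.isMaximal W).ne_top h6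
  exact (Ideal.mul_unit_mem_iff_mem _ h3).1 h1

/-- `S → W / 𝔪 W` is onto. -/
theorem exists_approx (x : W) :
    ∃ a : S, incl A S W a - x ∈ (maximalIdeal A).map (algebraMap A W) := by
  obtain ⟨a, s, hs, hxs⟩ := exists_frac A S W x x.2
  obtain ⟨s₁, p, hp, h1⟩ := (ctr_isMaximal A S W).exists_inv hs
  obtain ⟨k, hk⟩ := pow_mem_of_mem_ctr A S W hp
  obtain ⟨c, hc⟩ := sub_dvd_pow_sub_pow 1 p k
  refine ⟨a * (s₁ * c), ?_⟩
  have h2 : incl A S W a = x * incl A S W s := Subtype.ext hxs.symm
  have h3 : s * (s₁ * c) = 1 - p ^ k := by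
    rw [one_pow] at hc
    rw [hc, ← h1]; ring
  have h4 : incl A S W (a * (s₁ * c)) - x = - x * incl A S W p ^ k := by
    rw [map_mul, h2, mul_assoc, ← map_mul, h3, map_sub, map_one, map_pow]; ring
  rw [h4]
  exact Ideal.mul_mem_left _ _ hk

theorem isCoprime_of_ne (W' : ValuationSubring L) [Algebra A W'] [IsScalarTower A W' L]
    [IsLocalHom (algebraMap A W')] (h : W ≠ W') :
    IsCoprime (((maximalIdeal A).map (algebraMap A W)).comap (incl A S W))
      (((maximalIdeal A).map (algebraMap A W')).comap (incl A S W')) := by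
  rw [Ideal.isCoprime_iff_sup_eq]
  by_contra hne
  obtain ⟨Q, hQ, hle⟩ := Ideal.exists_le_maximal _ hne
  have h1 : ctr A S W ≤ Q := by
    intro p hp
    obtain ⟨k, hk⟩ := pow_mem_of_mem_ctr A S W hp
    have : p ^ k ∈ Q := hle (Ideal.mem_sup_left (by rw [Ideal.mem_comap, map_pow]; exact hk))
    exact hQ.isPrime.mem_of_pow_mem k this
  have h2 : ctr A S W' ≤ Q := by
    intro p hp
    obtain ⟨k, hk⟩ := pow_mem_of_mem_ctr A S W' hp
    have : p ^ k ∈ Q := hle (Ideal.mem_sup_right (by rw [Ideal.mem_comap, map_pow]; exact hk))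
    exact hQ.isPrime.mem_of_pow_mem k this
  have h3 : ctr A S W = Q := (ctr_isMaximal A S W).eq_of_le hQ.ne_top h1
  have h4 : ctr A S W' = Q := (ctr_isMaximal A S W').eq_of_le hQ.ne_top h2
  exact h (le_antisymm (le_of_ctr_eq A S W W' (h3.trans h4.symm))
    (le_of_ctr_eq A S W' W (h4.trans h3.symm)))

end Val

section Family

variable (A S : Type*) {L : Type*} [CommRing A] [IsDomain A] [IsDiscreteValuationRing A]
  [CommRing S] [IsDedekindDomain S] [Field L] [Algebra A S] [Algebra S L] [Algebra A L]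
  [IsScalarTower A S L] [IsFractionRing S L] [Module.Finite A S] [Module.Free A S]
  {ι : Type*} [Finite ι] (W : ι → ValuationSubring L) [∀ i, Algebra A (W i)]
  [∀ i, IsScalarTower A (W i) L] [∀ i, IsLocalHom (algebraMap A (W i))]

/-- weak approximation modulo `𝔪`. -/
theorem exists_approx_family (hW : Function.Injective W) (x : ∀ i, W i) :
    ∃ s : S, ∀ i, incl A S (W i) s - x i ∈ (maximalIdeal A).map (algebraMap A (W i)) := by
  choose a ha using fun i => exists_approx A S (W i) (x i)
  obtain ⟨s, hs⟩ := Ideal.exists_forall_sub_mem_ideal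
    (I := fun i => ((maximalIdeal A).map (algebraMap A (W i))).comap (incl A S (W i)))
    (fun i j hij => isCoprime_of_ne A S (W i) (W j) (fun h => hij (hW h))) a
  refine ⟨s, fun i => ?_⟩
  have h1 := hs i
  rw [Ideal.mem_comap, map_sub] at h1
  have := Ideal.add_mem _ h1 (ha i)
  simpa using this

end Family

end Fermat.Agent.CAR.NR
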