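import Mathlib

/-!
# CAR / NR : abstract norm formulas and the fundamental equality (interface)

`K ⊆ L` a finite extension of fields of characteristic zero, `V` a discrete valuation ring of `K`
with uniformiser `π`, `W i` pairwise distinct valuation rings of `L` over `V`.  The user only supplies
*lower bounds*: an element `ϖ i` of positive valuation with `v_i(π) ≥ e i * v_i(ϖ i)`, and `f i`
elements of `W i` whose residues are linearly independent over the residue field of `V`, such that
`[L : K] ≤ ∑ e i * f i`.  Everything is phrased with `ValuationSubring.valuation`: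
`x ∈ W ↔ W.valuation x ≤ 1`, `W.valuation x < 1` ("positive"), `W.valuation x = 1` ("unit"),
`W.valuation z = W.valuation ϖ ^ a` ("`ord z = a`").
-/

set_option autoImplicit false

namespace Fermat.Agent.CAR.NR

open Module

/-- `ϖ` is a uniformiser of the (discrete) valuation ring `W`. -/
structure IsUnif {L : Type*} [Field L] (W : ValuationSubring L) (ϖ : L) : Prop where
  ne_zero : ϖ ≠ 0
  lt_one : W.valuation ϖ < 1
  exists_zpow : ∀ x : L, x ≠ 0 → ∃ j : ℤ, W.valuation x = W.valuation ϖ ^ j

/-- the family `b` of elements of `W` has linearly independent residues over the residue field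
of `V`. -/
def ResIndepFam {K L : Type*} [Field K] [Field L] [Algebra K L] (V : ValuationSubring K)
    (W : ValuationSubring L) {n : ℕ} (b : Fin n → L) : Prop :=
  (∀ l, b l ∈ W) ∧ ∀ c : Fin n → K, (∀ l, c l ∈ V) →
    W.valuation (∑ l, algebraMap K L (c l) * b l) < 1 → ∀ l, V.valuation (c l) < 1

/-- The data: lower bounds for the ramification indices and residue degrees which add up to the
degree. -/
structure ExtData (K L : Type*) [Field K] [Field L] [Algebra K L] (ι : Type*) [Fintype ι] where
  V : ValuationSubring K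
  π : K
  W : ι → ValuationSubring L
  ϖ : ι → L
  e : ι → ℕ
  f : ι → ℕ
  b : ∀ i, Fin (f i) → L
  hπ : IsUnif V π
  inj : Function.Injective W
  hover : ∀ (i : ι) (a : K), algebraMap K L a ∈ W i ↔ a ∈ V
  ϖ_ne : ∀ i, ϖ i ≠ 0
  ϖ_lt : ∀ i, (W i).valuation (ϖ i) < 1
  e_pos : ∀ i, 1 ≤ e i
  he : ∀ i, (W i).valuation (algebraMap K L π) ≤ (W i).valuation (ϖ i) ^ e i
  hb : ∀ i, ResIndepFam V (W i) (b i)
  deg : finrank K L ≤ ∑ i, e i * f i

/-- **Fundamental equality**: all the lower bounds are equalities and the `W i` are all the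
valuation rings of `L` over `V`. -/
def Stmt_FundEq : Prop :=
  ∀ (K L : Type) [Field K] [Field L] [Algebra K L] [FiniteDimensional K L] [CharZero K]
    (ι : Type) [Fintype ι] (D : ExtData K L ι),
    (∀ i, IsUnif (D.W i) (D.ϖ i)) ∧
    (∀ i, (D.W i).valuation (algebraMap K L D.π) = (D.W i).valuation (D.ϖ i) ^ D.e i) ∧
    (∀ i, ∀ x ∈ D.W i, ∃ c : Fin (D.f i) → K, (∀ l, c l ∈ D.V) ∧
      (D.W i).valuation (x - ∑ l, algebraMap K L (c l) * D.b i l) < 1) ∧
    (∀ W' : ValuationSubring L, (∀ a : K, algebraMap K L a ∈ W' ↔ a ∈ D.V) → ∃ i, W' = D.W i) ∧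
    (∀ x : L, (∀ i, x ∈ D.W i) ↔ IsIntegral D.V x) ∧
    finrank K L = ∑ i, D.e i * D.f i

/-- weak approximation modulo `π` (by-product). -/
def Stmt_ApproxPi : Prop :=
  ∀ (K L : Type) [Field K] [Field L] [Algebra K L] [FiniteDimensional K L] [CharZero K]
    (ι : Type) [Fintype ι] (D : ExtData K L ι) (x : ι → L), (∀ i, x i ∈ D.W i) →
    ∃ s : L, (∀ i, s ∈ D.W i) ∧
      ∀ i, (D.W i).valuation (s - x i) ≤ (D.W i).valuation (algebraMap K L D.π)

/-- **(VERT)** the valuation of a norm: `ord_V (N z) = ∑ f i * ord_i z`. -/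
def Stmt_OrdNorm : Prop :=
  ∀ (K L : Type) [Field K] [Field L] [Algebra K L] [FiniteDimensional K L] [CharZero K]
    (ι : Type) [Fintype ι] (D : ExtData K L ι) (z : L) (a : ι → ℤ),
    (∀ i, (D.W i).valuation z = (D.W i).valuation (D.ϖ i) ^ a i) →
    D.V.valuation (Algebra.norm K z) = D.V.valuation D.π ^ (∑ i, (D.f i : ℤ) * a i)

/-- the residue extension of `W / V` is purely inseparable (`p` the residue characteristic);
for a trivial residue extension take `s = 0`. -/
def PInsep {K L : Type*} [Field K] [Field L] [Algebra K L] (V : ValuationSubring K)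
    (W : ValuationSubring L) (p : ℕ) : Prop :=
  ∀ x ∈ W, ∃ (s : ℕ) (a : K), a ∈ V ∧ W.valuation (x ^ p ^ s - algebraMap K L a) < 1

/-- **(RED)** the reduction of a norm, when all residue extensions are purely inseparable
(e.g. trivial): if `y ^ f i ≡ c i` at `W i` then `N y ≡ ∏ c i ^ e i`. -/
def Stmt_RedNorm : Prop :=
  ∀ (K L : Type) [Field K] [Field L] [Algebra K L] [FiniteDimensional K L] [CharZero K]
    (ι : Type) [Fintype ι] (D : ExtData K L ι) (p : ℕ), p.Prime → D.V.valuation (p : K) < 1 →
    (∀ i, PInsep D.V (D.W i) p) →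
    ∀ y : L, (∀ i, y ∈ D.W i) → Algebra.norm K y ∈ D.V ∧
      ∀ c : ι → K, (∀ i, c i ∈ D.V) →
        (∀ i, (D.W i).valuation (y ^ D.f i - algebraMap K L (c i)) < 1) →
        D.V.valuation (Algebra.norm K y - ∏ i, c i ^ D.e i) < 1

end Fermat.Agent.CAR.NR
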