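import Fermat.Agent.CAR.NR.Wrap

/-!
# CAR / NR : the user level statements (`Stmt_FundEq`, `Stmt_ApproxPi`, `Stmt_OrdNorm`,
`Stmt_RedNorm`), universe polymorphic versions in the namespace `ExtData`.
-/

set_option autoImplicit false
set_option linter.unusedSectionVars false
set_option linter.unusedVariables false

namespace Fermat.Agent.CAR.NR

open IsLocalRing Module

attribute [local instance] Ideal.Quotient.field

variable {K L : Type*} [Field K] [Field L] [Algebra K L] {ι : Type*} [Fintype ι]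
  (D : ExtData K L ι) [FiniteDimensional K L] [CharZero K]

namespace ExtData

theorem isUnif (i : ι) : IsUnif (D.W i) (D.ϖ i) := D.summary.1 i

theorem val_π (i : ι) :
    (D.W i).valuation (algebraMap K L D.π) = (D.W i).valuation (D.ϖ i) ^ D.e i := D.summary.2.1 i

theorem finrank_kW (i : ι) : finrank (D.V ⧸ maximalIdeal D.V) (kW (D.W i)) = D.f i :=
  D.summary.2.2.1 i

theorem finrank_eq : finrank K L = ∑ i, D.e i * D.f i := D.summary.2.2.2

/-- the uniformiser of `W i` as an element of `W i`. -/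
def ϖW (i : ι) : D.W i := ⟨D.ϖ i, (D.isUnif i).mem⟩

theorem ϖW_ne (i : ι) : D.ϖW i ≠ 0 := fun h => D.ϖ_ne i (congrArg Subtype.val h)

theorem hmax (i : ι) : maximalIdeal (D.W i) = Ideal.span {D.ϖW i} := (D.isUnif i).maximalIdeal_eq

theorem hmap (i : ι) : (maximalIdeal D.V).map (algebraMap D.V (D.W i))
    = Ideal.span {D.ϖW i ^ D.e i} := by
  rw [D.map_eq_span i, Ideal.span_singleton_eq_span_singleton, associated_iff_val]
  have := D.val_π i
  rw [← map_pow] at this
  exact this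

theorem hn : finrank D.V D.SS
    ≤ ∑ i, D.e i * finrank (D.V ⧸ maximalIdeal D.V) (kW (D.W i)) := by
  rw [D.finrank_SS, D.finrank_eq]
  exact le_of_eq (Finset.sum_congr rfl fun i _ => by rw [D.finrank_kW i])

theorem bij : Function.Bijective (Psi D.V D.SS D.W) :=
  Psi_bijective D.V D.SS D.W D.ϖW D.e D.inj D.ϖW_ne D.hmax D.hmap D.hn

/-- `⋂ W i` is the integral closure of `V`. -/
theorem forall_mem_iff (x : L) : (∀ i, x ∈ D.W i) ↔ IsIntegral D.V x := by
  constructor
  · intro h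
    obtain ⟨s, rfl⟩ := mem_range_of_forall_mem D.V D.SS D.W D.bij.1 x h
    exact s.2
  · intro h i
    exact mem_of_S D.V D.SS (D.W i) ⟨x, h⟩

theorem exists_SS (x : L) (h : ∀ i, x ∈ D.W i) : ∃ s : D.SS, (s : L) = x :=
  mem_range_of_forall_mem D.V D.SS D.W D.bij.1 x h

/-- `b i` spans the residue field. -/
theorem exists_residue_eq (i : ι) (x : L) (hx : x ∈ D.W i) :
    ∃ c : Fin (D.f i) → K, (∀ l, c l ∈ D.V) ∧
      (D.W i).valuation (x - ∑ l, algebraMap K L (c l) * D.b i l) < 1 := by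
  have := D.finite_kW i
  have hpos : 0 < D.f i := by rw [← D.finrank_kW i]; exact finrank_pos
  have : Nonempty (Fin (D.f i)) := ⟨⟨0, hpos⟩⟩
  have hspan := (D.linearIndependent_b i).span_eq_top_of_card_eq_finrank
    (by rw [Fintype.card_fin, D.finrank_kW i])
  have hx' : (Ideal.Quotient.mk (maximalIdeal (D.W i)) ⟨x, hx⟩ : kW (D.W i)) ∈
      Submodule.span (D.V ⧸ maximalIdeal D.V) (Set.range fun l =>
        (Ideal.Quotient.mk (maximalIdeal (D.W i)) ⟨D.b i l, (D.hb i).1 l⟩ : kW (D.W i))) := by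
    rw [hspan]; trivial
  obtain ⟨g, hg⟩ := (Submodule.mem_span_range_iff_exists_fun _).1 hx'
  choose c hc using fun l => Ideal.Quotient.mk_surjective (g l)
  refine ⟨fun l => (c l : K), fun l => (c l).2, ?_⟩
  have h1 : ∑ l, g l • (Ideal.Quotient.mk (maximalIdeal (D.W i)) ⟨D.b i l, (D.hb i).1 l⟩ : kW (D.W i))
      = Ideal.Quotient.mk (maximalIdeal (D.W i))
          (∑ l, algebraMap D.V (D.W i) (c l) * ⟨D.b i l, (D.hb i).1 l⟩) := by
    rw [map_sum]
    refine Finset.sum_congr rfl fun l _ => ?_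
    rw [← hc l, map_mul]
    rfl
  rw [h1, eq_comm, Ideal.Quotient.eq, ValuationSubring.valuation_lt_one_iff] at hg
  have h2 : (((∑ l, algebraMap D.V (D.W i) (c l) * ⟨D.b i l, (D.hb i).1 l⟩ : D.W i)) : L)
      = ∑ l, algebraMap K L (c l : K) * D.b i l := by
    rw [AddSubmonoidClass.coe_finsetSum]
    rfl
  rw [← h2]
  exact hg

/-- the `W i` are all the valuation rings over `V`. -/
theorem exists_eq_of_over (W' : ValuationSubring L)
    (h : ∀ a : K, algebraMap K L a ∈ W' ↔ a ∈ D.V) : ∃ i, W' = D.W i := by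
  let φ : D.V →+* W' :=
    { toFun := fun a => ⟨algebraMap K L a, (h a).2 a.2⟩
      map_one' := Subtype.ext (map_one _)
      map_mul' := fun x y => Subtype.ext (map_mul _ _ _)
      map_zero' := Subtype.ext (map_zero _)
      map_add' := fun x y => Subtype.ext (map_add _ _ _) }
  let _ : Algebra D.V W' := φ.toAlgebra
  have : IsScalarTower D.V W' L := IsScalarTower.of_algebraMap_eq fun _ => rfl
  have : IsLocalHom (algebraMap D.V W') := by
    constructor
    intro a ha
    rw [ValuationSubring.valuation_eq_one_iff] at ha ⊢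
    exact (val_eq_one_iff_of_over h a).1 ha
  exact exists_eq_of_dominates D.V D.SS D.W D.bij.1 W'

/-- weak approximation modulo `π`. -/
theorem exists_approx_π (x : ι → L) (hx : ∀ i, x i ∈ D.W i) :
    ∃ s : L, (∀ i, s ∈ D.W i) ∧
      ∀ i, (D.W i).valuation (s - x i) ≤ (D.W i).valuation (algebraMap K L D.π) := by
  obtain ⟨s, hs⟩ := exists_approx_family D.V D.SS D.W D.inj fun i => ⟨x i, hx i⟩
  refine ⟨s, fun i => mem_of_S D.V D.SS (D.W i) s, fun i => ?_⟩
  have h1 := hs i
  rw [D.map_eq_span i, mem_span_iff_val] at h1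
  exact h1

theorem norm_SS (s : D.SS) : Algebra.norm K (s : L) = ((Algebra.norm D.V s : D.V) : K) := by
  have h := Algebra.algebraMap_intNorm (A := D.V) (K := K) (L := L) (B := D.SS) s
  rw [Algebra.intNorm_eq_norm] at h
  exact h.symm

/-- **(VERT)** the valuation of a norm. -/
theorem ord_norm (z : L) (a : ι → ℤ)
    (hz : ∀ i, (D.W i).valuation z = (D.W i).valuation (D.ϖ i) ^ a i) :
    D.V.valuation (Algebra.norm K z) = D.V.valuation D.π ^ (∑ i, (D.f i : ℤ) * a i) := by
  classical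
  let k : ℕ := ∑ i, (a i).natAbs
  have hk : ∀ i, 0 ≤ a i + (k : ℤ) * D.e i := by
    intro i
    have h1 : (a i).natAbs ≤ k := Finset.single_le_sum (f := fun i => (a i).natAbs)
      (fun _ _ => Nat.zero_le _) (Finset.mem_univ i)
    have h2 : (k : ℤ) ≤ (k : ℤ) * D.e i := by
      have : (1 : ℤ) ≤ D.e i := by exact_mod_cast D.e_pos i
      nlinarith [Int.natCast_nonneg k]
    have h3 : -a i ≤ ((a i).natAbs : ℤ) := by
      rw [Int.natCast_natAbs]; exact neg_le_abs _
    have h4 : ((a i).natAbs : ℤ) ≤ k := by exact_mod_cast h1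
    linarith
  let m : ι → ℕ := fun i => (a i + (k : ℤ) * D.e i).toNat
  have hm : ∀ i, (m i : ℤ) = a i + (k : ℤ) * D.e i := fun i => Int.toNat_of_nonneg (hk i)
  have hz₁ : ∀ i, (D.W i).valuation (z * algebraMap K L D.π ^ k)
      = (D.W i).valuation (D.ϖ i) ^ m i := by
    intro i
    rw [map_mul, map_pow, hz i, D.val_π i, ← zpow_natCast _ (m i), hm i,
      zpow_add₀ (D.isUnif i).pos.ne', ← pow_mul, ← zpow_natCast _ (D.e i * k)]
    congr 2
    push_cast; ring
  obtain ⟨s, hs⟩ := D.exists_SS (z * algebraMap K L D.π ^ k) (fun i => by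
    rw [← ValuationSubring.valuation_le_one_iff, hz₁ i]
    exact pow_le_one₀ zero_le (D.ϖ_lt i).le)
  have hassoc := norm_associated D.V D.SS D.W D.inj D.bij.1 D.ϖW D.ϖW_ne D.hmax D.πV
    D.irreducible_πV s m (fun i => by
      rw [associated_iff_val]
      have h1 : ((incl D.V D.SS (D.W i) s : D.W i) : L) = z * algebraMap K L D.π ^ k := hs
      rw [h1, hz₁ i, ← map_pow]
      rfl)
  rw [associated_iff_val, ← D.norm_SS s, hs, map_mul, map_pow, Algebra.norm_algebraMap] at hassoc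
  have h2 : ((D.πV ^ ∑ i, finrank (D.V ⧸ maximalIdeal D.V) (kW (D.W i)) * m i : D.V) : K)
      = D.π ^ ∑ i, D.f i * m i := by
    rw [Finset.sum_congr rfl fun i _ => by rw [D.finrank_kW i]]
    rfl
  rw [h2, map_mul, map_pow, map_pow, map_pow] at hassoc
  have hg : D.V.valuation D.π ≠ 0 := D.hπ.pos.ne'
  have h3 : ((∑ i, D.f i * m i : ℕ) : ℤ) = (∑ i, (D.f i : ℤ) * a i) + ((finrank K L * k : ℕ) : ℤ) := by
    rw [D.finrank_eq]
    push_cast
    rw [Finset.sum_mul, ← Finset.sum_add_distrib]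
    refine Finset.sum_congr rfl fun i _ => ?_
    rw [hm i]; ring
  rw [← pow_mul, ← zpow_natCast _ (∑ i, D.f i * m i), h3, zpow_add₀ hg, zpow_natCast] at hassoc
  exact mul_right_cancel₀ (pow_ne_zero _ hg) hassoc

end ExtData

/-- the norm of a purely inseparable element. -/
theorem algebraMap_norm_of_pow_mem {k₀ k₁ : Type*} [Field k₀] [Field k₁] [Algebra k₀ k₁]
    (p : ℕ) [Fact p.Prime] [CharP k₁ p] (x : k₁) (s : ℕ) (a : k₀)
    (h : x ^ p ^ s = algebraMap k₀ k₁ a) :
    algebraMap k₀ k₁ (Algebra.norm k₀ x) = x ^ finrank k₀ k₁ := by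
  have hinj : Function.Injective (iterateFrobenius k₁ p s) := by
    rw [coe_iterateFrobenius]
    exact (frobenius_inj k₁ p).iterate s
  apply hinj
  rw [iterateFrobenius_def, iterateFrobenius_def, ← map_pow, ← map_pow, h,
    Algebra.norm_algebraMap, map_pow, ← h, ← pow_mul, ← pow_mul, mul_comm]

namespace ExtData

/-- **(RED)** the reduction of a norm, general form. -/
theorem mk_norm_SS (s : D.SS) :
    Ideal.Quotient.mk (maximalIdeal D.V) (Algebra.norm D.V s)
      = ∏ i, Algebra.norm (D.V ⧸ maximalIdeal D.V)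
          (Ideal.Quotient.mk _ (incl D.V D.SS (D.W i) s) : kW (D.W i)) ^ D.e i :=
  mk_norm D.V D.SS D.W D.ϖW D.e D.inj D.ϖW_ne D.hmax D.hmap D.hn s

theorem norm_mem (y : L) (hy : ∀ i, y ∈ D.W i) : Algebra.norm K y ∈ D.V := by
  obtain ⟨s, rfl⟩ := D.exists_SS y hy
  rw [D.norm_SS s]
  exact Subtype.mem _

/-- **(RED)** the reduction of a norm when the residue extensions are purely inseparable. -/
theorem red_norm (p : ℕ) (hp : p.Prime) (hpV : D.V.valuation (p : K) < 1)
    (hins : ∀ i, PInsep D.V (D.W i) p) (y : L) (hy : ∀ i, y ∈ D.W i) (c : ι → K)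
    (hc : ∀ i, c i ∈ D.V)
    (hyc : ∀ i, (D.W i).valuation (y ^ D.f i - algebraMap K L (c i)) < 1) :
    D.V.valuation (Algebra.norm K y - ∏ i, c i ^ D.e i) < 1 := by
  obtain ⟨s, rfl⟩ := D.exists_SS y hy
  have : Fact p.Prime := ⟨hp⟩
  have hchar0 : CharP (D.V ⧸ maximalIdeal D.V) p := by
    rw [CharP.charP_iff_prime_eq_zero hp]
    have h1 : ((p : D.V) : D.V ⧸ maximalIdeal D.V) = 0 := by
      rw [← Ideal.Quotient.mk_eq_mk, Ideal.Quotient.mk_eq_mk, Ideal.Quotient.eq_zero_iff_mem,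
        ValuationSubring.valuation_lt_one_iff]
      exact_mod_cast hpV
    exact_mod_cast h1
  have key : ∀ i, Algebra.norm (D.V ⧸ maximalIdeal D.V)
      (Ideal.Quotient.mk _ (incl D.V D.SS (D.W i) s) : kW (D.W i))
      = Ideal.Quotient.mk (maximalIdeal D.V) ⟨c i, hc i⟩ := by
    intro i
    have hchar : CharP (kW (D.W i)) p :=
      charP_of_injective_algebraMap (algebraMap (D.V ⧸ maximalIdeal D.V) (kW (D.W i))).injective p
    obtain ⟨t, a, ha, hta⟩ := hins i (s : L) (hy i)
    have h1 : (Ideal.Quotient.mk (maximalIdeal (D.W i)) (incl D.V D.SS (D.W i) s) : kW (D.W i))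
        ^ p ^ t = algebraMap (D.V ⧸ maximalIdeal D.V) (kW (D.W i))
          (Ideal.Quotient.mk (maximalIdeal D.V) ⟨a, ha⟩) := by
      rw [← map_pow]
      change _ = Ideal.Quotient.mk (maximalIdeal (D.W i)) (algebraMap D.V (D.W i) ⟨a, ha⟩)
      rw [Ideal.Quotient.eq, ValuationSubring.valuation_lt_one_iff]
      exact hta
    have h2 := algebraMap_norm_of_pow_mem p _ t _ h1
    apply (algebraMap (D.V ⧸ maximalIdeal D.V) (kW (D.W i))).injective
    rw [h2, D.finrank_kW i, ← map_pow]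
    change _ = Ideal.Quotient.mk (maximalIdeal (D.W i)) (algebraMap D.V (D.W i) ⟨c i, hc i⟩)
    rw [Ideal.Quotient.eq, ValuationSubring.valuation_lt_one_iff]
    exact hyc i
  have h3 := D.mk_norm_SS s
  rw [Finset.prod_congr rfl fun i _ => by rw [key i], ← Finset.prod_congr rfl fun i _ => map_pow _ _ _,
    ← map_prod, Ideal.Quotient.eq, ValuationSubring.valuation_lt_one_iff] at h3
  rw [D.norm_SS s]
  have h4 : (((∏ i, (⟨c i, hc i⟩ : D.V) ^ D.e i : D.V)) : K) = ∏ i, c i ^ D.e i := by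
    rw [SubmonoidClass.coe_finsetProd]
    rfl
  rw [← h4]
  exact h3

end ExtData

/-! ### the interface statements -/

theorem stmt_FundEq : Stmt_FundEq := by
  intro K L _ _ _ _ _ ι _ D
  exact ⟨D.isUnif, D.val_π, D.exists_residue_eq, D.exists_eq_of_over, D.forall_mem_iff,
    D.finrank_eq⟩

theorem stmt_ApproxPi : Stmt_ApproxPi := by
  intro K L _ _ _ _ _ ι _ D x hx
  exact D.exists_approx_π x hx

theorem stmt_OrdNorm : Stmt_OrdNorm := by
  intro K L _ _ _ _ _ ι _ D z a hz
  exact D.ord_norm z a hz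

theorem stmt_RedNorm : Stmt_RedNorm := by
  intro K L _ _ _ _ _ ι _ D p hp hpV hins y hy
  exact ⟨D.norm_mem y hy, fun c hc hyc => D.red_norm p hp hpV hins y hy c hc hyc⟩

end Fermat.Agent.CAR.NR
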