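import Fermat.Agent.CAR.NR.Interface

/-!
# CAR / NR : dictionary between `ValuationSubring.valuation` and the ideal theory of `↥W`
-/

set_option autoImplicit false

namespace Fermat.Agent.CAR.NR

open IsLocalRing

section

variable {L : Type*} [Field L] (W : ValuationSubring L)

theorem integersW : W.valuation.Integers W where
  hom_inj := Subtype.val_injective
  map_le_one := W.valuation_le_one
  exists_of_le_one := fun {x} hx => ⟨⟨x, (W.valuation_le_one_iff x).1 hx⟩, rfl⟩

variable {W}

theorem dvd_iff_val {x y : W} : x ∣ y ↔ W.valuation (y : L) ≤ W.valuation (x : L) :=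
  (integersW W).dvd_iff_le

theorem mem_span_iff_val {x y : W} :
    y ∈ Ideal.span {x} ↔ W.valuation (y : L) ≤ W.valuation (x : L) := by
  rw [Ideal.mem_span_singleton, dvd_iff_val]

theorem val_pos {x : L} (hx : x ≠ 0) : 0 < W.valuation x :=
  zero_lt_iff.2 ((W.valuation.ne_zero_iff).2 hx)

theorem associated_iff_val {x y : W} :
    Associated x y ↔ W.valuation (x : L) = W.valuation (y : L) := by
  rw [← dvd_dvd_iff_associated, dvd_iff_val, dvd_iff_val]
  exact ⟨fun h => le_antisymm h.2 h.1, fun h => ⟨h.ge, h.le⟩⟩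

namespace IsUnif

variable {ϖ : L} (h : IsUnif W ϖ)
include h

theorem pos : 0 < W.valuation ϖ := val_pos h.ne_zero

theorem mem : ϖ ∈ W := (W.valuation_le_one_iff ϖ).1 h.lt_one.le

theorem zpow_inj {m n : ℤ} : W.valuation ϖ ^ m = W.valuation ϖ ^ n ↔ m = n :=
  zpow_right_inj₀ h.pos h.lt_one.ne

theorem exists_pow {x : L} (hx0 : x ≠ 0) (hx : x ∈ W) :
    ∃ j : ℕ, W.valuation x = W.valuation ϖ ^ j := by
  obtain ⟨j, hj⟩ := h.exists_zpow x hx0
  have h1 : W.valuation ϖ ^ j ≤ 1 := hj ▸ (W.valuation_le_one_iff x).2 hx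
  rw [zpow_le_one_iff_right_of_lt_one₀ h.pos h.lt_one] at h1
  obtain ⟨k, rfl⟩ := Int.eq_ofNat_of_zero_le h1
  exact ⟨k, by rw [hj, zpow_natCast]⟩

theorem irreducible : Irreducible (⟨ϖ, h.mem⟩ : W) := by
  rw [irreducible_iff]
  refine ⟨fun hu => ?_, fun a b hab => ?_⟩
  · rw [W.valuation_eq_one_iff] at hu
    exact h.lt_one.ne hu
  · have ha0 : (a : L) ≠ 0 := by
      intro h0
      apply h.ne_zero
      have := congrArg Subtype.val hab
      simpa [h0] using this
    have hb0 : (b : L) ≠ 0 := by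
      intro h0
      apply h.ne_zero
      have := congrArg Subtype.val hab
      simpa [h0] using this
    obtain ⟨j, hj⟩ := h.exists_pow ha0 a.2
    obtain ⟨k, hk⟩ := h.exists_pow hb0 b.2
    have h1 : W.valuation ϖ = W.valuation (a : L) * W.valuation (b : L) := by
      rw [← map_mul]
      exact congrArg (fun z : W => W.valuation (z : L)) hab
    rw [hj, hk, ← pow_add] at h1
    have h2 : W.valuation ϖ ^ (1 : ℤ) = W.valuation ϖ ^ ((j + k : ℕ) : ℤ) := by
      rw [zpow_one, zpow_natCast]; exact h1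
    rw [h.zpow_inj] at h2
    have h3 : j = 0 ∨ k = 0 := by omega
    rcases h3 with rfl | rfl
    · left; rw [W.valuation_eq_one_iff, hj, pow_zero]
    · right; rw [W.valuation_eq_one_iff, hk, pow_zero]

theorem isDVR : IsDiscreteValuationRing W := by
  apply IsDiscreteValuationRing.ofHasUnitMulPowIrreducibleFactorization
  refine ⟨⟨ϖ, h.mem⟩, h.irreducible, fun {x} hx => ?_⟩
  have hx0 : (x : L) ≠ 0 := fun h0 => hx (Subtype.ext h0)
  obtain ⟨j, hj⟩ := h.exists_pow hx0 x.2
  refine ⟨j, ?_⟩
  rw [associated_iff_val, hj]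
  simp

theorem maximalIdeal_eq : maximalIdeal W = Ideal.span {(⟨ϖ, h.mem⟩ : W)} := by
  haveI := h.isDVR
  exact h.irreducible.maximalIdeal_eq

end IsUnif

/-- in a discrete valuation subring every irreducible element is a uniformiser. -/
theorem isUnif_of_irreducible [IsDiscreteValuationRing W] {ϖ : W} (h : Irreducible ϖ) :
    IsUnif W (ϖ : L) where
  ne_zero := fun h0 => h.ne_zero (Subtype.ext h0)
  lt_one := by
    rw [← W.valuation_lt_one_iff]
    exact (IsLocalRing.mem_maximalIdeal _).2 h.not_isUnit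
  exists_zpow := by
    have key : ∀ x : L, x ≠ 0 → x ∈ W → ∃ j : ℤ, W.valuation x = W.valuation (ϖ : L) ^ j := by
      intro x hx0 hx
      obtain ⟨n, hn⟩ := IsDiscreteValuationRing.associated_pow_irreducible
        (x := (⟨x, hx⟩ : W)) (fun h0 => hx0 (congrArg Subtype.val h0)) h
      rw [associated_iff_val] at hn
      exact ⟨n, by rw [zpow_natCast]; simpa using hn⟩
    intro x hx0
    rcases W.mem_or_inv_mem x with hx | hx
    · exact key x hx0 hx
    · obtain ⟨j, hj⟩ := key x⁻¹ (inv_ne_zero hx0) hx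
      refine ⟨-j, ?_⟩
      rw [zpow_neg, ← hj, map_inv₀, inv_inv]

end

end Fermat.Agent.CAR.NR
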