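import Fermat.Agent.CAR.NR.Core2
import Fermat.Agent.CAR.NR.ValLemmas

/-!
# CAR / NR : from `ExtData` to the core statements
-/

set_option autoImplicit false
set_option linter.unusedSectionVars false
set_option linter.unusedVariables false

namespace Fermat.Agent.CAR.NR

open IsLocalRing Module

attribute [local instance] Ideal.Quotient.field

variable {K L : Type*} [Field K] [Field L] [Algebra K L] {ι : Type*} [Fintype ι]
  (D : ExtData K L ι)

namespace ExtData

instance instDVR : IsDiscreteValuationRing D.V := D.hπ.isDVR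

/-- the inclusion `V → W i`. -/
def toW (i : ι) : D.V →+* D.W i where
  toFun a := ⟨algebraMap K L a, (D.hover i a).2 a.2⟩
  map_one' := Subtype.ext (map_one _)
  map_mul' x y := Subtype.ext (map_mul _ _ _)
  map_zero' := Subtype.ext (map_zero _)
  map_add' x y := Subtype.ext (map_add _ _ _)

instance algVW (i : ι) : Algebra D.V (D.W i) := (D.toW i).toAlgebra

theorem algebraMap_VW_coe (i : ι) (a : D.V) :
    ((algebraMap D.V (D.W i) a : D.W i) : L) = algebraMap K L a := rfl

instance towerVW (i : ι) : IsScalarTower D.V (D.W i) L :=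
  IsScalarTower.of_algebraMap_eq fun _ => rfl

theorem val_lt_one_iff_inv_not_mem {F : Type*} [Field F] (U : ValuationSubring F) (x : F)
    (hx : x ≠ 0) : U.valuation x < 1 ↔ x⁻¹ ∉ U := by
  rw [← U.valuation_le_one_iff, map_inv₀, not_le, one_lt_inv₀ (val_pos hx)]

/-- general fact: `W` over `V` dominates `V`. -/
theorem val_lt_one_iff_of_over {V : ValuationSubring K} {W : ValuationSubring L}
    (h : ∀ a : K, algebraMap K L a ∈ W ↔ a ∈ V) (a : K) :
    W.valuation (algebraMap K L a) < 1 ↔ V.valuation a < 1 := by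
  rcases eq_or_ne a 0 with rfl | ha
  · simp
  rw [val_lt_one_iff_inv_not_mem W _ (by simpa using ha), val_lt_one_iff_inv_not_mem V a ha,
    ← map_inv₀, h]

theorem val_eq_one_iff_of_over {V : ValuationSubring K} {W : ValuationSubring L}
    (h : ∀ a : K, algebraMap K L a ∈ W ↔ a ∈ V) (a : K) :
    W.valuation (algebraMap K L a) = 1 ↔ V.valuation a = 1 := by
  have h1 := val_lt_one_iff_of_over h a
  have h2 : W.valuation (algebraMap K L a) ≤ 1 ↔ V.valuation a ≤ 1 := by
    rw [W.valuation_le_one_iff, V.valuation_le_one_iff, h]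
  constructor
  · intro h3
    exact le_antisymm (h2.1 h3.le) (not_lt.1 fun h4 => (h1.2 h4).ne h3)
  · intro h3
    exact le_antisymm (h2.2 h3.le) (not_lt.1 fun h4 => (h1.1 h4).ne h3)

instance localVW (i : ι) : IsLocalHom (algebraMap D.V (D.W i)) := by
  constructor
  intro a ha
  rw [ValuationSubring.valuation_eq_one_iff] at ha ⊢
  exact (val_eq_one_iff_of_over (D.hover i) a).1 ha

instance torsionFreeVL : Module.IsTorsionFree D.V L := by
  rw [Module.isTorsionFree_iff_algebraMap_injective]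
  intro x y h
  exact Subtype.ext ((algebraMap K L).injective h)

/-- the uniformiser of `V` as an element of `V`. -/
def πV : D.V := ⟨D.π, D.hπ.mem⟩

theorem irreducible_πV : Irreducible D.πV := D.hπ.irreducible

/-- `𝔪 W i = π W i`. -/
theorem map_eq_span (i : ι) : (maximalIdeal D.V).map (algebraMap D.V (D.W i))
    = Ideal.span {algebraMap D.V (D.W i) D.πV} := by
  rw [D.irreducible_πV.maximalIdeal_eq, Ideal.map_span, Set.image_singleton]

/-- the residues of `b i` are linearly independent. -/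
theorem linearIndependent_b (i : ι) :
    LinearIndependent (D.V ⧸ maximalIdeal D.V)
      (fun l => (Ideal.Quotient.mk (maximalIdeal (D.W i)) ⟨D.b i l, (D.hb i).1 l⟩ : kW (D.W i))) := by
  rw [Fintype.linearIndependent_iff]
  intro g hg l
  choose c hc using fun l => Ideal.Quotient.mk_surjective (g l)
  have h1 : ∑ l, g l • (Ideal.Quotient.mk (maximalIdeal (D.W i)) ⟨D.b i l, (D.hb i).1 l⟩ : kW (D.W i))
      = Ideal.Quotient.mk (maximalIdeal (D.W i))
          (∑ l, algebraMap D.V (D.W i) (c l) * ⟨D.b i l, (D.hb i).1 l⟩) := by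
    rw [map_sum]
    refine Finset.sum_congr rfl fun l _ => ?_
    rw [← hc l, map_mul]
    rfl
  rw [h1, Ideal.Quotient.eq_zero_iff_mem, ValuationSubring.valuation_lt_one_iff] at hg
  have h2 : (((∑ l, algebraMap D.V (D.W i) (c l) * ⟨D.b i l, (D.hb i).1 l⟩ : D.W i)) : L)
      = ∑ l, algebraMap K L (c l : K) * D.b i l := by
    rw [AddSubmonoidClass.coe_finsetSum]
    rfl
  rw [h2] at hg
  have h3 := (D.hb i).2 (fun l => (c l : K)) (fun l => (c l).2) hg l
  rw [← hc l, Ideal.Quotient.eq_zero_iff_mem, ValuationSubring.valuation_lt_one_iff]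
  exact h3

section Fin

variable [FiniteDimensional K L] [CharZero K]

/-- the integral closure of `V` in `L`. -/
abbrev SS : Type _ := integralClosure D.V L

instance : IsDedekindDomain D.SS := integralClosure.isDedekindDomain D.V K L

instance : IsFractionRing D.SS L := integralClosure.isFractionRing_of_finite_extension K L

instance : Module.Finite D.V D.SS := IsIntegralClosure.finite D.V K L D.SS

instance : Module.Free D.V D.SS := IsIntegralClosure.module_free D.V K L D.SS

theorem finrank_SS : finrank D.V D.SS = finrank K L := IsIntegralClosure.rank D.V K L D.SS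

theorem finite_kW (i : ι) : Module.Finite (D.V ⧸ maximalIdeal D.V) (kW (D.W i)) := by
  have := finite_Mb D.V D.SS (D.W i)
  refine Module.Finite.of_surjective (toRes D.V (D.W i)) ?_
  intro x
  obtain ⟨x, rfl⟩ := Ideal.Quotient.mk_surjective x
  exact ⟨Ideal.Quotient.mk _ x, rfl⟩

theorem f_le (i : ι) : D.f i ≤ finrank (D.V ⧸ maximalIdeal D.V) (kW (D.W i)) := by
  have := D.finite_kW i
  simpa using (D.linearIndependent_b i).fintype_card_le_finrank

/-- arithmetic of the equality case. -/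
theorem arith_aux {e f e₀ f₀ k : ℕ} (he : 1 ≤ e) (hk : 1 ≤ k) (hf₀ : 1 ≤ f₀) (hke : k * e ≤ e₀)
    (hf : f ≤ f₀) (h : e₀ * f₀ ≤ e * f) : e₀ = e ∧ f₀ = f ∧ k = 1 := by
  have h1 : e ≤ e₀ := le_trans (Nat.le_mul_of_pos_left e hk) hke
  have h2 : e * f₀ ≤ e₀ * f₀ := Nat.mul_le_mul_right _ h1
  have h3 : e * f ≤ e * f₀ := Nat.mul_le_mul_left _ hf
  have h4 : e * f₀ = e * f := le_antisymm (h2.trans h) h3
  have h5 : f₀ = f := Nat.eq_of_mul_eq_mul_left he h4
  have h6 : e₀ * f₀ = e * f₀ := le_antisymm (h.trans h3) h2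
  have h7 : e₀ = e := Nat.eq_of_mul_eq_mul_right hf₀ h6
  refine ⟨h7, h5, ?_⟩
  rw [h7] at hke
  have h8 : k * e ≤ 1 * e := by rwa [one_mul]
  exact le_antisymm (Nat.le_of_mul_le_mul_right h8 he) hk

/-- **the equality case of the fundamental inequality.** -/
theorem summary : (∀ i, IsUnif (D.W i) (D.ϖ i)) ∧
    (∀ i, (D.W i).valuation (algebraMap K L D.π) = (D.W i).valuation (D.ϖ i) ^ D.e i) ∧
    (∀ i, finrank (D.V ⧸ maximalIdeal D.V) (kW (D.W i)) = D.f i) ∧
    finrank K L = ∑ i, D.e i * D.f i := by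
  choose ϖ₀ e₀ hirr hmax hmap using fun i => exists_unif D.V D.SS (D.W i)
  have hdvr : ∀ i, IsDiscreteValuationRing (D.W i) := fun i => isDVR D.V D.SS (D.W i)
  have hU : ∀ i, IsUnif (D.W i) (ϖ₀ i : L) := fun i => isUnif_of_irreducible (hirr i)
  have hineq := fund_ineq D.V D.SS D.W ϖ₀ e₀ D.inj (fun i => (hirr i).ne_zero) hmax hmap
  rw [D.finrank_SS] at hineq
  -- the order of `ϖ i`
  have hk : ∀ i, ∃ k : ℕ, 1 ≤ k ∧ (D.W i).valuation (D.ϖ i) = (D.W i).valuation (ϖ₀ i : L) ^ k := by
    intro i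
    obtain ⟨k, hk⟩ := (hU i).exists_pow (D.ϖ_ne i)
      (((D.W i).valuation_le_one_iff _).1 (D.ϖ_lt i).le)
    refine ⟨k, ?_, hk⟩
    rcases Nat.eq_zero_or_pos k with rfl | h
    · exfalso
      rw [pow_zero] at hk
      exact (D.ϖ_lt i).ne hk
    · exact h
  choose k hk1 hk using hk
  -- the order of `π`
  have hπ : ∀ i, (D.W i).valuation (algebraMap K L D.π)
      = (D.W i).valuation (ϖ₀ i : L) ^ e₀ i := by
    intro i
    have h1 := hmap i
    rw [D.map_eq_span i, Ideal.span_singleton_eq_span_singleton, associated_iff_val] at h1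
    rw [← map_pow]
    exact h1
  have hke : ∀ i, k i * D.e i ≤ e₀ i := by
    intro i
    have h1 := D.he i
    rw [hπ i, hk i, ← pow_mul, ← zpow_natCast, ← zpow_natCast,
      zpow_le_zpow_iff_right_of_lt_one₀ (hU i).pos (hU i).lt_one] at h1
    exact_mod_cast h1
  have hf₀ : ∀ i, 1 ≤ finrank (D.V ⧸ maximalIdeal D.V) (kW (D.W i)) := by
    intro i
    have := D.finite_kW i
    exact finrank_pos
  have hterm : ∀ i ∈ (Finset.univ : Finset ι), D.e i * D.f i
      ≤ e₀ i * finrank (D.V ⧸ maximalIdeal D.V) (kW (D.W i)) := by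
    intro i _
    exact Nat.mul_le_mul (le_trans (Nat.le_mul_of_pos_left _ (hk1 i)) (hke i)) (D.f_le i)
  have hsum : ∑ i, D.e i * D.f i
      = ∑ i, e₀ i * finrank (D.V ⧸ maximalIdeal D.V) (kW (D.W i)) :=
    le_antisymm (Finset.sum_le_sum hterm) (hineq.trans D.deg)
  have hall := (Finset.sum_eq_sum_iff_of_le hterm).1 hsum
  have hfin : ∀ i, e₀ i = D.e i ∧ finrank (D.V ⧸ maximalIdeal D.V) (kW (D.W i)) = D.f i ∧
      k i = 1 := fun i =>
    arith_aux (D.e_pos i) (hk1 i) (hf₀ i) (hke i) (D.f_le i) (hall i (Finset.mem_univ i)).ge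
  have hval : ∀ i, (D.W i).valuation (D.ϖ i) = (D.W i).valuation (ϖ₀ i : L) := by
    intro i
    rw [hk i, (hfin i).2.2, pow_one]
  refine ⟨fun i => ⟨D.ϖ_ne i, D.ϖ_lt i, fun x hx => ?_⟩, fun i => ?_, fun i => (hfin i).2.1,
    le_antisymm D.deg (hsum ▸ hineq)⟩
  · rw [hval i]
    exact (hU i).exists_zpow x hx
  · rw [hπ i, hval i, (hfin i).1]

end Fin

end ExtData

end Fermat.Agent.CAR.NR
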